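/-
S29lib / K3 / Curve (helper6).
The analytic function field `Fan N = Frac (WH0 Γ₀(N))` as a Prelude curve over `ℂ`
(`RRgen.isCurveOfGenus`), its places in terms of the two charts, the divisibility predicate
`NDiv n G` ("the divisor of `G` is divisible by `n`") and (K3a): `NDiv n G` implies that all the
analytic orders of `G` on `ℍ` are divisible by `n`.
-/
import Mathlib
import Fermat.Agent.S18lib.RRgen.Main
import Fermat.Agent.ProgramR.CuspLocal.InftyFinal
import Fermat.Agent.ProgramR.Analytic.Gamma0Dict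

set_option autoImplicit false
set_option linter.unusedSectionVars false

noncomputable section

namespace Fermat.Agent.S29lib.K3

open Fermat.Agent.ProgramR Fermat.Agent.ProgramR.RR Fermat.Agent.ProgramR.Alg
open Fermat.Agent.S18lib AlgebraicCurve CongruenceSubgroup IsDedekindDomain UpperHalfPlane
open scoped MatrixGroups

attribute [local instance] Genus.cosetFintype

variable (N : ℕ) [NeZero N]

/-- the finite chart `B_N = WH0 Γ₀(N)` -/
abbrev Bn : Type := ↥(WH0 (Gamma0 N))

/-- the analytic function field of `X₀(N)` over `ℂ` -/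
abbrev Fan : Type := FF ℂ (Bn N)

/-- the chart at infinity -/
abbrev BnInf : Subalgebra (Ainf ℂ) (Fan N) := Binf ℂ (Bn N)

instance isScalarTower_C_Ainf_Fan : IsScalarTower ℂ (Ainf ℂ) (Fan N) :=
  IsScalarTower.of_algebraMap_eq fun a => by
    rw [IsScalarTower.algebraMap_apply ℂ (RatFunc ℂ) (Fan N)]
    rfl

instance algebraBnInf : Algebra ℂ (BnInf N) := Subalgebra.algebra' (BnInf N)

instance isScalarTower_C_BnInf_Fan : IsScalarTower ℂ (BnInf N) (Fan N) :=
  IsScalarTower.of_algebraMap_eq fun _ => rfl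

/-- the genus of the analytic curve -/
def genusAn : ℕ := RRgen.genus ℂ (Fan N) (Bn N) (BnInf N)

/-- **the analytic function field is a Prelude curve** -/
theorem isCurveAn : IsCurveOfGenus ℂ (Fan N) (genusAn N) :=
  RRgen.isCurveOfGenus ℂ (Fan N) (Bn N) (BnInf N)

/-- the place of a prime of the finite chart -/
abbrev plFin (P : HeightOneSpectrum (Bn N)) : Place ℂ (Fan N) := RRgen.placeFin ℂ (Fan N) (Bn N) P

/-- the place of a prime of the chart at infinity -/
abbrev plInf (Q : HeightOneSpectrum (BnInf N)) : Place ℂ (Fan N) :=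
  RRgen.placeInf ℂ (Fan N) (BnInf N) Q

lemma ord_plFin (P : HeightOneSpectrum (Bn N)) (f : Fan N) : (plFin N P).ord f = ordV P f :=
  RRgen.ord_placeFin ℂ (Fan N) (Bn N) P f

lemma ord_plInf (Q : HeightOneSpectrum (BnInf N)) (f : Fan N) : (plInf N Q).ord f = ordV Q f :=
  RRgen.ord_placeInf ℂ (Fan N) (BnInf N) Q f

lemma exists_plFin_or_plInf (v : Place ℂ (Fan N)) :
    (∃ P, plFin N P = v) ∨ (∃ Q, plInf N Q = v) :=
  RRgen.exists_placeFin_or_placeInf ℂ (Fan N) (Bn N) (BnInf N) v

/-- the image of `G ∈ B_N` in the function field -/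
abbrev toFan (G : Bn N) : Fan N := algebraMap (Bn N) (Fan N) G

lemma toFan_ne_zero {G : Bn N} (hG : G ≠ 0) : toFan N G ≠ 0 := fun h =>
  hG (IsFractionRing.injective (Bn N) (Fan N) (h.trans (map_zero _).symm))

/-- **the divisor of `f` is divisible by `n`** -/
def NDivF (n : ℕ) (f : Fan N) : Prop := ∀ v : Place ℂ (Fan N), (n : ℤ) ∣ v.ord f

/-- the divisor of `G ∈ B_N` is divisible by `n` -/
def NDiv (n : ℕ) (G : Bn N) : Prop := NDivF N n (toFan N G)

lemma nDivF_iff (n : ℕ) (f : Fan N) :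
    NDivF N n f ↔ (∀ P : HeightOneSpectrum (Bn N), (n : ℤ) ∣ ordV P f) ∧
      (∀ Q : HeightOneSpectrum (BnInf N), (n : ℤ) ∣ ordV Q f) := by
  constructor
  · intro h
    refine ⟨fun P => ?_, fun Q => ?_⟩
    · rw [← ord_plFin]
      exact h _
    · rw [← ord_plInf]
      exact h _
  · rintro ⟨h1, h2⟩ v
    rcases exists_plFin_or_plInf N v with ⟨P, rfl⟩ | ⟨Q, rfl⟩
    · rw [ord_plFin]
      exact h1 P
    · rw [ord_plInf]
      exact h2 Q

/-- **(K3a)** if the divisor of `G` is divisible by `n` then so are all the analytic orders of `G`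
on `ℍ`. -/
theorem exists_ordAt_eq_mul_of_NDiv {n : ℕ} {G : Bn N} (hG : G ≠ 0) (h : NDiv N n G) (z : ℍ) :
    ∃ k : ℕ, Hol.ordAt z (WH0.toHol (Gamma0 N) G) = ((n * k : ℕ) : ℕ∞) := by
  obtain ⟨P, s, -, -, hs⟩ := exists_prime_ordAt_eq (L := Fan N) N z
  have h1 := ((nDivF_iff N n (toFan N G)).mp h).1 P
  have h0 : 0 ≤ ordV P (toFan N G) := ordV_algebraMap_nonneg (L := Fan N) P hG
  obtain ⟨c, hc⟩ := h1
  have hc0 : 0 ≤ (n : ℤ) * c := hc ▸ h0
  refine ⟨s * c.toNat, ?_⟩
  rw [hs G hG]
  congr 1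
  have h2 : (ordV P (toFan N G)).toNat = n * c.toNat := by
    rw [hc]
    rcases Nat.eq_zero_or_pos n with rfl | hn
    · simp
    · have hc' : 0 ≤ c := by
        by_contra hlt
        rw [not_le] at hlt
        have : (n : ℤ) * c < 0 := mul_neg_of_pos_of_neg (by exact_mod_cast hn) hlt
        omega
      rw [Int.toNat_mul (by positivity) hc', Int.toNat_natCast]
  show s * (ordV P (toFan N G)).toNat = n * (s * c.toNat)
  rw [h2]
  ring

end Fermat.Agent.S29lib.K3
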