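/-
S29lib / K3 / Count (helper6).
The lattice side of the Kummer comparison for `Γ₀(N)`:
`V_ℤ = parabolicHoms ℤ Γ₀(N) ℤ` is free of rank `2g`, and reduction modulo `n` induces
`(ℤ/n)^(2g) ≃+ Hom⁰(Γ₀(N), ℤ/n)` (homomorphisms killing the parabolic and the finite order
elements), compatibly with `ℤ/m → ℤ/n` for `n ∣ m`.
-/
import Mathlib
import Fermat.Agent.S16lib.LG.Lift

set_option autoImplicit false
set_option linter.unusedSectionVars false

noncomputable section

namespace Fermat.Agent.S29lib.K3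

open Fermat.Agent.S16lib.LG Fermat.Agent.ProgramR.ES ModularCurve.Period CongruenceSubgroup
open scoped MatrixGroups

variable (N : ℕ) [NeZero N]

/-- the index type of the chosen basis of `V_ℤ` for `Γ₀(N)` -/
abbrev VI : Type := VIdx (Gamma0 N)

/-- `Hom⁰(Γ₀(N), M)`: homomorphisms killing the parabolic and the finite order elements -/
abbrev Hom0 (M : Type*) [AddCommGroup M] : AddSubgroup (Additive (Gamma0 N) →+ M) :=
  parHomsM (Gamma0 N) IsParTor M

variable (n : ℕ) [NeZero n]

/-- the reduction modulo `n` of the `i`-th basis vector of `V_ℤ` -/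
def basisMod (i : VI N) : Additive (Gamma0 N) →+ ZMod n :=
  toZModn (Gamma0 N) n ((vBasis (Gamma0 N) i : ↥(VZ (Gamma0 N))) : Additive (Gamma0 N) →+ ℤ)

lemma basisMod_apply (i : VI N) (γ : Gamma0 N) :
    basisMod N n i (Additive.ofMul γ) =
      (((vBasis (Gamma0 N) i : ↥(VZ (Gamma0 N))) : Additive (Gamma0 N) →+ ℤ)
        (Additive.ofMul γ) : ZMod n) := rfl

/-- the reduction of an element of `V_ℤ` kills the parabolic and the finite order elements -/
lemma toZModn_mem_Hom0 (v : ↥(VZ (Gamma0 N))) :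
    toZModn (Gamma0 N) n (v : Additive (Gamma0 N) →+ ℤ) ∈ Hom0 N (ZMod n) := by
  intro γ hγ
  have hv0 : (v : Additive (Gamma0 N) →+ ℤ) (Additive.ofMul γ) = 0 := by
    rcases hγ with h | h
    · exact v.2 γ h
    · have h' : γ ^ 12 = 1 := by
        apply Subtype.ext
        rw [Subgroup.coe_pow, h]
        rfl
      have h12 : (12 : ℕ) • (v : Additive (Gamma0 N) →+ ℤ) (Additive.ofMul γ) = 0 := by
        rw [← map_nsmul, ← ofMul_pow, h', ofMul_one, map_zero]
      simpa using h12
  show ((Int.castAddHom (ZMod n)) ((v : Additive (Gamma0 N) →+ ℤ) (Additive.ofMul γ))) = 0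
  rw [hv0, map_zero]

/-- coordinates `(ℤ/n)^I → Hom(Γ₀(N), ℤ/n)`, `c ↦ Σ cᵢ (bᵢ mod n)` -/
def coordHom : (VI N → ZMod n) →+ (Additive (Gamma0 N) →+ ZMod n) where
  toFun c := ∑ i, (c i).val • basisMod N n i
  map_zero' := by simp
  map_add' c c' := by
    rw [← Finset.sum_add_distrib]
    refine Finset.sum_congr rfl fun i _ => ?_
    apply AddMonoidHom.ext
    intro a
    simp only [Pi.add_apply, AddMonoidHom.add_apply, AddMonoidHom.nsmul_apply, nsmul_eq_mul,
      ZMod.natCast_val, ZMod.cast_id', id_eq]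
    ring

lemma coordHom_apply (c : VI N → ZMod n) (γ : Gamma0 N) :
    coordHom N n c (Additive.ofMul γ) = ∑ i, c i * basisMod N n i (Additive.ofMul γ) := by
  simp only [coordHom, AddMonoidHom.coe_mk, ZeroHom.coe_mk, AddMonoidHom.finsetSum_apply,
    AddMonoidHom.nsmul_apply, nsmul_eq_mul, ZMod.natCast_val, ZMod.cast_id', id_eq]


/-- `coordHom` in terms of an integral lift: it is the reduction of `Σ (cᵢ.val) bᵢ ∈ V_ℤ`. -/
lemma coordHom_eq_toZModn (c : VI N → ZMod n) :
    coordHom N n c = toZModn (Gamma0 N) n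
      ((∑ i, ((c i).val : ℤ) • vBasis (Gamma0 N) i : ↥(VZ (Gamma0 N))) :
        Additive (Gamma0 N) →+ ℤ) := by
  apply AddMonoidHom.ext
  intro a
  induction a using Additive.rec with
  | ofMul γ =>
    rw [coordHom_apply]
    simp only [pushHom_apply, Int.coe_castAddHom, AddSubmonoidClass.coe_finsetSum,
      Submodule.coe_smul, AddMonoidHom.finsetSum_apply, AddMonoidHom.smul_apply, smul_eq_mul,
      Int.cast_sum, Int.cast_mul, Int.cast_natCast]
    refine Finset.sum_congr rfl fun i _ => ?_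
    rw [basisMod_apply, ZMod.natCast_val, ZMod.cast_id', id_eq]

lemma coordHom_mem_Hom0 (c : VI N → ZMod n) : coordHom N n c ∈ Hom0 N (ZMod n) := by
  rw [coordHom_eq_toZModn]
  exact toZModn_mem_Hom0 N n _

/-- the `Fin n`-valued function attached to a `ZMod n`-valued one -/
def toFinFun (c : VI N → ZMod n) : VI N → Fin n := fun i => ⟨(c i).val, ZMod.val_lt (c i)⟩

lemma coordHom_eq_liftMap (c : VI N → ZMod n) :
    coordHom N n c = liftMap (Gamma0 N) n (toFinFun N n c) := by
  rw [coordHom_eq_toZModn]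
  rfl

lemma coordHom_injective : Function.Injective (coordHom N n) := by
  intro c c' h
  rw [coordHom_eq_liftMap, coordHom_eq_liftMap] at h
  have h2 := liftMap_injective (Gamma0 N) n h
  funext i
  have h3 := congrArg (fun f : VI N → Fin n => ((f i : Fin n) : ℕ)) h2
  exact ZMod.val_injective n h3

lemma coordHom_surjective_onto_Hom0 (ψ : Additive (Gamma0 N) →+ ZMod n)
    (hψ : ψ ∈ Hom0 N (ZMod n)) : ∃ c : VI N → ZMod n, coordHom N n c = ψ := by
  obtain ⟨φ, hφ, hred⟩ := exists_parabolic_lift N n ψ hψ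
  set v : ↥(VZ (Gamma0 N)) := ⟨φ, hφ⟩ with hv
  refine ⟨fun i => (((vBasis (Gamma0 N)).repr v i : ℤ) : ZMod n), ?_⟩
  apply AddMonoidHom.ext
  intro a
  induction a using Additive.rec with
  | ofMul γ =>
    rw [coordHom_apply, ← hred γ]
    have hsum : v = ∑ i, (vBasis (Gamma0 N)).repr v i • vBasis (Gamma0 N) i :=
      ((vBasis (Gamma0 N)).sum_repr v).symm
    have h1 : φ (Additive.ofMul γ) =
        ∑ i, (vBasis (Gamma0 N)).repr v i *
          ((vBasis (Gamma0 N) i : ↥(VZ (Gamma0 N))) : Additive (Gamma0 N) →+ ℤ)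
            (Additive.ofMul γ) := by
      have h2 := congrArg (fun w : ↥(VZ (Gamma0 N)) =>
        (w : Additive (Gamma0 N) →+ ℤ) (Additive.ofMul γ)) hsum
      simp only [hv, AddSubmonoidClass.coe_finsetSum, Submodule.coe_smul,
        AddMonoidHom.finsetSum_apply, AddMonoidHom.smul_apply, smul_eq_mul] at h2
      exact h2
    rw [h1]
    push_cast
    rfl

/-- **Coordinates**: `(ℤ/n)^I ≃+ Hom⁰(Γ₀(N), ℤ/n)`. -/
def coordEquiv : (VI N → ZMod n) ≃+ ↥(Hom0 N (ZMod n)) :=
  AddEquiv.ofBijective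
    ((coordHom N n).codRestrict (Hom0 N (ZMod n)) (coordHom_mem_Hom0 N n))
    ⟨fun c c' h => coordHom_injective N n (congrArg Subtype.val h),
     fun ψ => by
      obtain ⟨c, hc⟩ := coordHom_surjective_onto_Hom0 N n ψ.1 ψ.2
      exact ⟨c, Subtype.ext hc⟩⟩

@[simp] lemma coe_coordEquiv (c : VI N → ZMod n) :
    ((coordEquiv N n c : ↥(Hom0 N (ZMod n))) : Additive (Gamma0 N) →+ ZMod n) =
      coordHom N n c := rfl

/-- the rank of `V_ℤ` is `2g` -/
lemma card_VI (g : ℕ) (hg : (g : ℚ) = ModularCurve.genusFormula N) :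
    Fintype.card (VI N) = 2 * g := by
  obtain ⟨hfd, hrank⟩ := finrank_parabolicHoms_complex N g hg
  have hle : 2 * g ≤ Fintype.card (VI N) := by
    rw [← hrank]
    exact finrank_parabolicHoms_complex_le_card (Gamma0 N)
  refine le_antisymm ?_ hle
  have h1 := card_parHomsM_Gamma0_le N (ZMod 2) g hg
  rw [Nat.card_zmod] at h1
  have h2 : Nat.card (VI N → ZMod 2) = Nat.card ↥(Hom0 N (ZMod 2)) :=
    Nat.card_congr (coordEquiv N 2).toEquiv
  rw [Nat.card_fun, Nat.card_zmod, Nat.card_eq_fintype_card] at h2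
  rw [← h2] at h1
  exact (Nat.pow_le_pow_iff_right (by norm_num)).mp h1

lemma card_Hom0 : Nat.card ↥(Hom0 N (ZMod n)) = n ^ Fintype.card (VI N) := by
  rw [← Nat.card_congr (coordEquiv N n).toEquiv, Nat.card_fun, Nat.card_zmod,
    Nat.card_eq_fintype_card]

/-- compatibility of the coordinates with `ℤ/m → ℤ/n` for `n ∣ m` -/
lemma coordHom_castHom {m : ℕ} [NeZero m] (h : n ∣ m) (c : VI N → ZMod m) :
    coordHom N n (fun i => ZMod.castHom h (ZMod n) (c i)) =
      pushHom (Gamma0 N) (ZMod.castHom h (ZMod n)).toAddMonoidHom (coordHom N m c) := by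
  apply AddMonoidHom.ext
  intro a
  induction a using Additive.rec with
  | ofMul γ =>
    rw [coordHom_apply, pushHom_apply, coordHom_apply]
    show _ = (ZMod.castHom h (ZMod n)) _
    rw [map_sum]
    refine Finset.sum_congr rfl fun i _ => ?_
    rw [map_mul, basisMod_apply, basisMod_apply, map_intCast]

/-- the rank `r = 2g` of the lattice -/
def rank : ℕ := Fintype.card (VI N)

/-- an enumeration of the basis -/
def finEquiv : VI N ≃ Fin (rank N) := Fintype.equivFin (VI N)

/-- **Coordinates** indexed by `Fin r`: `(ℤ/n)^r ≃+ Hom⁰(Γ₀(N), ℤ/n)`. -/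
def coordEquivFin : (Fin (rank N) → ZMod n) ≃+ ↥(Hom0 N (ZMod n)) :=
  (AddEquiv.arrowCongr (finEquiv N).symm (AddEquiv.refl (ZMod n))).trans (coordEquiv N n)

lemma coordEquivFin_apply (c : Fin (rank N) → ZMod n) :
    ((coordEquivFin N n c : ↥(Hom0 N (ZMod n))) : Additive (Gamma0 N) →+ ZMod n) =
      coordHom N n (fun i => c (finEquiv N i)) := rfl

lemma coordEquivFin_castHom {m : ℕ} [NeZero m] (h : n ∣ m) (c : Fin (rank N) → ZMod m) :
    ((coordEquivFin N n (fun i => ZMod.castHom h (ZMod n) (c i)) : ↥(Hom0 N (ZMod n))) :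
        Additive (Gamma0 N) →+ ZMod n) =
      pushHom (Gamma0 N) (ZMod.castHom h (ZMod n)).toAddMonoidHom
        ((coordEquivFin N m c : ↥(Hom0 N (ZMod m))) : Additive (Gamma0 N) →+ ZMod m) := by
  rw [coordEquivFin_apply, coordEquivFin_apply]
  exact coordHom_castHom N n h _

end Fermat.Agent.S29lib.K3
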