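/-
S29lib / K3 / ExpChar (helper6).
The bridge `μ_n ↔ ℤ/n`: characters `Γ → ℂˣ` of exponent `n` are the same thing as
homomorphisms `Γ → ℤ/n`, via `ψ ↦ exp(2πi ψ / n)` (`ZMod.stdAddChar`); compatibility in `n`.
-/
import Mathlib

set_option autoImplicit false

noncomputable section

namespace Fermat.Agent.S29lib.K3

variable {Γ : Type*} [Group Γ] (n : ℕ) [NeZero n]

lemma stdAddChar_ne_zero (j : ZMod n) : (ZMod.stdAddChar j : ℂ) ≠ 0 := by
  rw [ZMod.stdAddChar_apply]
  exact Circle.coe_ne_zero _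

/-- `ψ ↦ exp(2πi ψ/n)`, from `Hom(Γ, ℤ/n)` to the characters of `Γ`. -/
def expChar (ψ : Additive Γ →+ ZMod n) : Γ →* ℂˣ where
  toFun γ := Units.mk0 (ZMod.stdAddChar (ψ (Additive.ofMul γ))) (stdAddChar_ne_zero n _)
  map_one' := by
    apply Units.ext
    simp
  map_mul' γ γ' := by
    apply Units.ext
    simp [AddChar.map_add_eq_mul]

@[simp] lemma expChar_apply (ψ : Additive Γ →+ ZMod n) (γ : Γ) :
    ((expChar n ψ γ : ℂˣ) : ℂ) = ZMod.stdAddChar (ψ (Additive.ofMul γ)) := rfl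

lemma expChar_zero : expChar n (0 : Additive Γ →+ ZMod n) = 1 := by
  ext γ
  simp

lemma expChar_add (ψ ψ' : Additive Γ →+ ZMod n) :
    expChar n (ψ + ψ') = expChar n ψ * expChar n ψ' := by
  ext γ
  simp [AddChar.map_add_eq_mul]

lemma expChar_injective : Function.Injective (expChar (Γ := Γ) n) := by
  intro ψ ψ' h
  apply AddMonoidHom.ext
  intro a
  induction a using Additive.rec with
  | ofMul γ =>
    have h1 := congrArg (fun χ : Γ →* ℂˣ => ((χ γ : ℂˣ) : ℂ)) h
    exact ZMod.injective_stdAddChar h1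

lemma expChar_pow (ψ : Additive Γ →+ ZMod n) (γ : Γ) : expChar n ψ γ ^ n = 1 := by
  apply Units.ext
  rw [Units.val_pow_eq_pow_val, expChar_apply, ← AddChar.map_nsmul_eq_pow]
  simp

lemma expChar_eq_one_iff (ψ : Additive Γ →+ ZMod n) (γ : Γ) :
    expChar n ψ γ = 1 ↔ ψ (Additive.ofMul γ) = 0 := by
  constructor
  · intro h
    have h1 := congrArg (fun u : ℂˣ => (u : ℂ)) h
    simp only [expChar_apply, Units.val_one] at h1
    rw [← (ZMod.stdAddChar (N := n)).map_zero_eq_one] at h1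
    exact ZMod.injective_stdAddChar h1
  · intro h
    apply Units.ext
    rw [expChar_apply, h]
    simp

/-- every `n`-th root of unity is a value of the standard character -/
lemma exists_stdAddChar_eq {w : ℂ} (hw : w ^ n = 1) : ∃ j : ZMod n, ZMod.stdAddChar j = w := by
  have hw' : w ≠ 0 := by
    rintro rfl
    rw [zero_pow (NeZero.ne n)] at hw
    exact zero_ne_one hw
  have hmem : Units.mk0 w hw' ∈ rootsOfUnity n ℂ := by
    rw [mem_rootsOfUnity]
    apply Units.ext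
    simpa using hw
  obtain ⟨j, _, hj⟩ := (Complex.mem_rootsOfUnity n (Units.mk0 w hw')).mp hmem
  refine ⟨(j : ZMod n), ?_⟩
  have h := ZMod.stdAddChar_coe (N := n) (j : ℤ)
  rw [Int.cast_natCast] at h
  rw [h]
  simp only [Units.val_mk0] at hj
  rw [← hj]
  congr 1
  push_cast
  ring

/-- every character of exponent `n` is `exp(2πi ψ/n)` for a (unique) `ψ : Γ → ℤ/n` -/
lemma exists_expChar_eq (χ : Γ →* ℂˣ) (hχ : ∀ γ, χ γ ^ n = 1) :
    ∃ ψ : Additive Γ →+ ZMod n, expChar n ψ = χ := by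
  have hex : ∀ γ : Γ, ∃ j : ZMod n, ZMod.stdAddChar j = ((χ γ : ℂˣ) : ℂ) := by
    intro γ
    apply exists_stdAddChar_eq
    rw [← Units.val_pow_eq_pow_val, hχ γ, Units.val_one]
  choose j hj using hex
  refine ⟨AddMonoidHom.mk' (fun a => j a.toMul) ?_, ?_⟩
  · intro a b
    apply ZMod.injective_stdAddChar (N := n)
    rw [AddChar.map_add_eq_mul, hj, hj, hj, toMul_add, map_mul, Units.val_mul]
  · ext γ
    rw [expChar_apply]
    exact hj γ

/-- the elements killed by `exp(2πi ψ/n)` are those killed by `ψ` -/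
lemma expChar_kills_iff (ψ : Additive Γ →+ ZMod n) (P : Γ → Prop) :
    (∀ γ, P γ → expChar n ψ γ = 1) ↔ ∀ γ, P γ → ψ (Additive.ofMul γ) = 0 := by
  constructor
  · intro h γ hγ
    exact (expChar_eq_one_iff n ψ γ).mp (h γ hγ)
  · intro h γ hγ
    exact (expChar_eq_one_iff n ψ γ).mpr (h γ hγ)

/-- compatibility in `n`: `exp(2πi ψ/(n d))^d = exp(2πi (ψ mod n)/n)` -/
lemma expChar_pow_eq {m : ℕ} [NeZero m] (d : ℕ) (hm : m = n * d) (ψ : Additive Γ →+ ZMod m)
    (γ : Γ) :
    expChar m ψ γ ^ d =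
      expChar n ((ZMod.castHom (Dvd.intro d hm.symm) (ZMod n)).toAddMonoidHom.comp ψ) γ := by
  apply Units.ext
  rw [Units.val_pow_eq_pow_val, expChar_apply, expChar_apply]
  obtain ⟨k, hk⟩ : ∃ k : ℤ, ψ (Additive.ofMul γ) = (k : ZMod m) :=
    ⟨((ψ (Additive.ofMul γ)).val : ℤ), by simp⟩
  have hcast : (ZMod.castHom (Dvd.intro d hm.symm) (ZMod n)).toAddMonoidHom.comp ψ
      (Additive.ofMul γ) = (k : ZMod n) := by
    show (ZMod.castHom (Dvd.intro d hm.symm) (ZMod n)) (ψ (Additive.ofMul γ)) = _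
    rw [hk, map_intCast]
  rw [hcast, hk, ZMod.stdAddChar_coe, ZMod.stdAddChar_coe, ← Complex.exp_nat_mul]
  congr 1
  have hn : (n : ℂ) ≠ 0 := by exact_mod_cast NeZero.ne n
  have hd : (d : ℂ) ≠ 0 := by
    have : d ≠ 0 := by
      rintro rfl
      exact NeZero.ne m (by rw [hm, mul_zero])
    exact_mod_cast this
  have hm' : (m : ℂ) = n * d := by
    rw [hm]
    push_cast
    ring
  rw [hm']
  field_simp

end Fermat.Agent.S29lib.K3
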