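/-
S29lib / K3 / Invariant (helper6).  (K3c)
A holomorphic `Γ`-invariant function on `ℍ` whose `n`-th power is weakly holomorphic of weight `0`
for `Γ` is itself weakly holomorphic (growth at the cusps: an `n`-th root of a bounded function
is bounded).
-/
import Mathlib
import Fermat.Agent.ProgramR.Analytic.WH0Ring

set_option autoImplicit false

noncomputable section

namespace Fermat.Agent.S29lib.K3

open Fermat.Agent.ProgramR UpperHalfPlane ModularForm
open scoped Manifold MatrixGroups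

local notation "Δ" => ModularForm.discriminant

/-- an `n`-th root of a function bounded at `i∞` is bounded at `i∞` -/
lemma isBoundedAtImInfty_of_pow {f : ℍ → ℂ} {n : ℕ} (hn : 0 < n)
    (h : IsBoundedAtImInfty (fun z => f z ^ n)) : IsBoundedAtImInfty f := by
  rw [isBoundedAtImInfty_iff] at h ⊢
  obtain ⟨M, A, hMA⟩ := h
  refine ⟨max 1 M, A, fun z hz => ?_⟩
  by_contra hlt
  rw [not_le] at hlt
  have h1 : 1 < ‖f z‖ := lt_of_le_of_lt (le_max_left 1 M) hlt
  have h2 : M < ‖f z‖ := lt_of_le_of_lt (le_max_right 1 M) hlt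
  have h3 : ‖f z‖ ≤ ‖f z‖ ^ n := le_self_pow₀ h1.le hn.ne'
  have h4 := hMA z hz
  rw [norm_pow] at h4
  linarith

/-- **(K3c)** an invariant holomorphic `n`-th root of an element of `WH0 Γ` lies in `WH0 Γ`. -/
theorem exists_WH0_of_pow_eq (Γ : Subgroup SL(2, ℤ)) {n : ℕ} (hn : 0 < n) (G : WH0 Γ) (y : Hol)
    (hy : y ^ n = WH0.toHol Γ G)
    (hinv : ∀ γ ∈ Γ, ∀ z : ℍ, (y : ℍ → ℂ) (γ • z) = (y : ℍ → ℂ) z) :
    ∃ Y : WH0 Γ, WH0.toHol Γ Y = y := by
  have hyz : ∀ z : ℍ, (y : ℍ → ℂ) z ^ n = G.1 z := by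
    intro z
    have := congrArg (fun f : Hol => (f : ℍ → ℂ) z) hy
    simpa using this
  have hW : IsWH0 Γ (y : ℍ → ℂ) := by
    refine ⟨y.2, hinv, ?_⟩
    obtain ⟨m, hm⟩ := (mem_WH0.mp G.2).exists_bdd
    refine ⟨m, fun g => ?_⟩
    apply isBoundedAtImInfty_of_pow hn
    have h1 : IsBoundedAtImInfty
        ((fun z : ℍ => G.1 (g • z) * Δ z ^ m) * (fun z : ℍ => Δ z ^ (m * (n - 1)))) :=
      (hm g).mul (isBoundedAtImInfty_discriminant_pow _)
    have e : ((fun z : ℍ => G.1 (g • z) * Δ z ^ m) * (fun z : ℍ => Δ z ^ (m * (n - 1)))) =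
        fun z : ℍ => ((y : ℍ → ℂ) (g • z) * Δ z ^ m) ^ n := by
      funext z
      obtain ⟨k, rfl⟩ : ∃ k, n = k + 1 := ⟨n - 1, by omega⟩
      simp only [Pi.mul_apply, add_tsub_cancel_right]
      rw [mul_pow, hyz, ← pow_mul, mul_assoc, ← pow_add]
      congr 2
      ring
    rwa [e] at h1
  exact ⟨⟨(y : ℍ → ℂ), hW⟩, rfl⟩

end Fermat.Agent.S29lib.K3
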