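/-
S29lib / K3 / RootData (helper6).
An `n`-th root `y` (holomorphic on `ℍ`) of a weakly holomorphic `Γ₀(N)`-invariant function `G`,
together with its character `χ : Γ₀(N) → ℂˣ`, `y(γ z) = χ(γ) y(z)`.
-/
import Mathlib
import Fermat.Agent.ProgramR.Analytic.WH0Ring

set_option autoImplicit false

noncomputable section

namespace Fermat.Agent.S29lib.K3

open Fermat.Agent.ProgramR UpperHalfPlane CongruenceSubgroup
open scoped MatrixGroups Manifold

/-- an `n`-th root of `G ∈ WH0 Γ₀(N)` in the ring of holomorphic functions on `ℍ`, with its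
character -/
structure RootData (N : ℕ) (n : ℕ) (G : ↥(WH0 (Gamma0 N))) where
  /-- the root -/
  y : Hol
  pow_eq : y ^ n = WH0.toHol (Gamma0 N) G
  /-- the character -/
  χ : Gamma0 N →* ℂˣ
  smul_eq : ∀ (γ : Gamma0 N) (z : ℍ),
    (y : ℍ → ℂ) ((γ : SL(2, ℤ)) • z) = ((χ γ : ℂˣ) : ℂ) * (y : ℍ → ℂ) z

namespace RootData

variable {N n : ℕ} {G : ↥(WH0 (Gamma0 N))} (R : RootData N n G)

lemma pow_apply (z : ℍ) : (R.y : ℍ → ℂ) z ^ n = G.1 z := by
  have := congrArg (fun f : Hol => (f : ℍ → ℂ) z) R.pow_eq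
  simpa using this

lemma exists_G_ne_zero (hG : G ≠ 0) : ∃ z : ℍ, G.1 z ≠ 0 := by
  by_contra h
  rw [not_exists] at h
  apply hG
  apply Subtype.ext
  funext z
  exact not_not.mp (h z)

lemma y_ne_zero (hG : G ≠ 0) (hn : 0 < n) : R.y ≠ 0 := by
  intro h
  apply hG
  apply WH0.toHol_injective
  rw [← R.pow_eq, h, zero_pow hn.ne', map_zero]

/-- the character has exponent `n` -/
lemma χ_pow (hG : G ≠ 0) (γ : Gamma0 N) : R.χ γ ^ n = 1 := by
  obtain ⟨z, hz⟩ := exists_G_ne_zero hG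
  have h1 : (R.y : ℍ → ℂ) ((γ : SL(2, ℤ)) • z) ^ n = G.1 ((γ : SL(2, ℤ)) • z) := R.pow_apply _
  rw [R.smul_eq, mul_pow, R.pow_apply, (mem_WH0.mp G.2).smul_eq γ.1 γ.2 z] at h1
  apply Units.ext
  rw [Units.val_pow_eq_pow_val, Units.val_one]
  exact mul_right_cancel₀ hz (h1.trans (one_mul _).symm)

/-- `-1` acts trivially on `ℍ`, hence on the root -/
lemma χ_neg_one (hG : G ≠ 0) (hn : 0 < n) (h1 : (-1 : SL(2, ℤ)) ∈ Gamma0 N) :
    R.χ ⟨-1, h1⟩ = 1 := by
  obtain ⟨z, hz⟩ := exists_G_ne_zero hG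
  have hy : (R.y : ℍ → ℂ) z ≠ 0 := by
    intro h
    apply hz
    rw [← R.pow_apply, h, zero_pow hn.ne']
  have h2 := R.smul_eq ⟨-1, h1⟩ z
  have h3 : ((-1 : SL(2, ℤ))) • z = z := by
    rw [ModularGroup.SL_neg_smul, one_smul]
  rw [h3] at h2
  apply Units.ext
  rw [Units.val_one]
  exact (mul_right_cancel₀ hy (h2.symm.trans (one_mul _).symm))

end RootData

end Fermat.Agent.S29lib.K3
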