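/-
S29lib / K3 / Cusp (helper6).  (K3b, cusps)
For a root datum `(y, χ)` of `G ∈ WH0 Γ₀(N)`, `g ∈ SL(2,ℤ)` and `s ∈ ℤ` with
`π = g⁻¹ T^s g ∈ Γ₀(N)`:   `χ(π) = exp(2πi s / (nN)) ^ ord_{q_N}(G ∘ g⁻¹)`.
-/
import Mathlib
import Fermat.Agent.ProgramR.CuspLocal.CuspExp
import Fermat.Agent.ProgramR.QExp.Affine
import Fermat.Agent.S29lib.K3.Invariant
import Fermat.Agent.S29lib.K3.RootData

set_option autoImplicit false
set_option linter.unusedSectionVars false

noncomputable section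

namespace Fermat.Agent.S29lib.K3

open Fermat.Agent.ProgramR Fermat.Agent.ProgramR.QExp Fermat.Agent.ProgramR.CuspLocal
open UpperHalfPlane CongruenceSubgroup Function
open scoped MatrixGroups Manifold

local notation "𝕢" => Periodic.qParam

/-- the order of `qExpand e f` -/
lemma order_qExpand_eq (e : ℕ) [NeZero e] (f : LaurentSeries ℂ) :
    (ModularCurve.qExpand ℂ e f).order = (e : ℤ) * f.order := by
  by_cases hf : f = 0
  · subst hf
    simp
  · have hne : ModularCurve.qExpand ℂ e f ≠ 0 := fun h =>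
      hf (ModularCurve.qExpand_injective e (by rw [h, map_zero]))
    have h1 : (ModularCurve.qExpand ℂ e f).orderTop =
        WithTop.map (fun n : ℤ => (e : ℤ) * n) f.orderTop := by
      unfold ModularCurve.qExpand
      show (HahnSeries.embDomain _ f).orderTop = _
      rw [HahnSeries.orderTop_embDomain]
      rfl
    rw [← HahnSeries.order_eq_orderTop_of_ne_zero hf,
      ← HahnSeries.order_eq_orderTop_of_ne_zero hne, WithTop.map_coe] at h1
    exact_mod_cast h1

namespace RootData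

variable {N : ℕ} [NeZero N] {n : ℕ} {G : ↥(WH0 (Gamma0 N))} (R : RootData N n G)

/-- the translate `z ↦ y (g⁻¹ z)` of the root -/
def trans (g : SL(2, ℤ)) : ℍ → ℂ := slTranslate g (R.y : ℍ → ℂ)

lemma trans_pow (g : SL(2, ℤ)) (z : ℍ) : R.trans g z ^ n = slTranslate g G.1 z := by
  unfold trans
  rw [slTranslate_apply, slTranslate_apply, R.pow_apply]

lemma mdiff_trans (g : SL(2, ℤ)) : MDiff (R.trans g) :=
  mdifferentiable_slTranslate g R.y.2

/-- the transformation of the translate under the stabiliser of the cusp -/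
lemma trans_vadd (g : SL(2, ℤ)) (s : ℤ) (hπ : g⁻¹ * (ModularGroup.T ^ s * g) ∈ Gamma0 N)
    (z : ℍ) : R.trans g ((s : ℝ) +ᵥ z) = ((R.χ ⟨_, hπ⟩ : ℂˣ) : ℂ) * R.trans g z := by
  have h1 : g⁻¹ • ((s : ℝ) +ᵥ z) = (g⁻¹ * (ModularGroup.T ^ s * g)) • (g⁻¹ • z) := by
    rw [← modular_T_zpow_smul, mul_smul, mul_smul, smul_inv_smul]
  unfold trans
  rw [slTranslate_apply, h1]
  exact R.smul_eq ⟨_, hπ⟩ _

/-- iterating the translation by `N` -/
lemma trans_vadd_mul_N (g : SL(2, ℤ)) (k : ℕ) (z : ℍ) :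
    R.trans g (((k : ℝ) * (N : ℝ)) +ᵥ z) =
      ((R.χ ⟨_, conj_T_zpow_N_mem N g⟩ : ℂˣ) : ℂ) ^ k * R.trans g z := by
  induction k with
  | zero => simp
  | succ k ih =>
    have e : (((k + 1 : ℕ) : ℝ) * (N : ℝ)) +ᵥ z = ((N : ℤ) : ℝ) +ᵥ (((k : ℝ) * (N : ℝ)) +ᵥ z) := by
      rw [vadd_vadd]
      congr 1
      push_cast
      ring
    rw [e, R.trans_vadd g (N : ℤ) (conj_T_zpow_N_mem N g), ih, pow_succ]
    ring

/-- the translate has period `nN` -/
lemma trans_periodic (hG : G ≠ 0) (g : SL(2, ℤ)) :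
    Periodic (R.trans g ∘ ofComplex) (((n : ℝ) * (N : ℝ) : ℝ) : ℂ) := by
  apply periodic_comp_ofComplex_of_vadd
  intro τ
  rw [R.trans_vadd_mul_N g n τ, ← Units.val_pow_eq_pow_val, R.χ_pow hG, Units.val_one, one_mul]

/-- the translate is meromorphic at `i∞` with respect to the period `nN` -/
lemma exists_isMeroAtInfty_trans (hG : G ≠ 0) (hn : 0 < n) (g : SL(2, ℤ)) :
    ∃ m, IsMeroAtInfty ((n : ℝ) * (N : ℝ)) m (R.trans g) := by
  obtain ⟨m, hm⟩ := exists_isMeroAtInfty_slTranslate (mem_WH0.mp G.2) g (NeZero.pos N)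
    (conj_T_zpow_N_mem N g)
  refine ⟨m, R.mdiff_trans g, R.trans_periodic hG g, ?_⟩
  apply isBoundedAtImInfty_of_pow hn
  have e : (fun z : ℍ => (qPow ((n : ℝ) * (N : ℝ)) m * R.trans g) z ^ n) =
      qPow (N : ℝ) m * slTranslate g G.1 := by
    funext z
    simp only [Pi.mul_apply, qPow_apply]
    rw [mul_pow, R.trans_pow, ← pow_mul, mul_comm m n, pow_mul,
      ← qParam_eq_pow_qParam_mul (N : ℝ) (natCast_pos_real N).ne' n hn.ne']
  rw [e]
  exact hm.bdd

/-- **cusp character formula** -/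
theorem χ_cusp (hG : G ≠ 0) (hn : 0 < n) (g : SL(2, ℤ)) (s : ℤ)
    (hπ : g⁻¹ * (ModularGroup.T ^ s * g) ∈ Gamma0 N) :
    ((R.χ ⟨_, hπ⟩ : ℂˣ) : ℂ) =
      twistFactor ((n : ℝ) * (N : ℝ)) (s : ℝ) ^ (cuspExp N g G).order := by
  have : NeZero n := ⟨hn.ne'⟩
  have hN : (0 : ℝ) < (N : ℝ) := natCast_pos_real N
  have hh : (0 : ℝ) < (n : ℝ) * (N : ℝ) := mul_pos (by exact_mod_cast hn) hN
  obtain ⟨m, hm⟩ := R.exists_isMeroAtInfty_trans hG hn g
  obtain ⟨m', hm'⟩ := exists_isMeroAtInfty_slTranslate (mem_WH0.mp G.2) g (NeZero.pos N)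
    (conj_T_zpow_N_mem N g)
  set H : ℍ → ℂ := R.trans g with hH
  set L : LaurentSeries ℂ := laurentExp ((n : ℝ) * (N : ℝ)) H with hL
  -- `L ^ n` is the expansion of `G ∘ g⁻¹` with respect to the period `nN`
  have hpow : L ^ n = ModularCurve.qExpand ℂ n (cuspExp N g G) := by
    have h1 : (⟨H, m, hm⟩ : merRing ((n : ℝ) * (N : ℝ)) hh) ^ n =
        ⟨slTranslate g G.1, n * m', isMeroAtInfty_period_mul hN hn hm'⟩ := by
      apply Subtype.ext
      funext z
      simp only [SubmonoidClass.coe_pow, Pi.pow_apply]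
      exact R.trans_pow g z
    have h2 := congrArg (laurentExpHom ((n : ℝ) * (N : ℝ)) hh) h1
    rw [map_pow, laurentExpHom_apply, laurentExpHom_apply] at h2
    rw [hL, h2, cuspExp_apply]
    exact laurentExp_period_mul hN hm'
  have hG' : cuspExp N g G ≠ 0 := fun h => hG (cuspExp_injective N g (h.trans (map_zero _).symm))
  have hLn : L ^ n ≠ 0 := by
    rw [hpow]
    exact fun h => hG' (ModularCurve.qExpand_injective n (by rw [h, map_zero]))
  have hL0 : L ≠ 0 := fun h => hLn (by rw [h, zero_pow hn.ne'])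
  have hord : L.order = (cuspExp N g G).order := by
    have h1 : (L ^ n).order = n • L.order := HahnSeries.order_pow L n
    rw [hpow, order_qExpand_eq, nsmul_eq_mul] at h1
    have hn' : (n : ℤ) ≠ 0 := by exact_mod_cast hn.ne'
    exact (mul_left_cancel₀ hn' h1).symm
  -- the translate by `s`
  set c : ℂ := ((R.χ ⟨_, hπ⟩ : ℂˣ) : ℂ) with hc
  have htw := laurentExp_coeff_of_vadd hh hm
    (f' := fun τ => H ((s : ℝ) +ᵥ τ))
    (by
      have : (fun τ : ℍ => H ((s : ℝ) +ᵥ τ)) = fun τ => c * H τ := by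
        funext τ
        exact R.trans_vadd g s hπ τ
      rw [this]
      exact (mdifferentiable_const (c := c)).mul (R.mdiff_trans g))
    (s : ℝ) (fun τ => rfl)
  have hcH : (fun τ : ℍ => H ((s : ℝ) +ᵥ τ)) = (fun _ : ℍ => c) * H := by
    funext τ
    exact R.trans_vadd g s hπ τ
  have hexp : laurentExp ((n : ℝ) * (N : ℝ)) (fun τ : ℍ => H ((s : ℝ) +ᵥ τ)) =
      HahnSeries.C c * L := by
    rw [hcH, laurentExp_mul hh (IsMeroAtInfty.of_isHolPerBdd (IsHolPerBdd.const _ c)) hm,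
      laurentExp_const hh]
  have hcoeff := htw.2 L.order
  rw [hexp, HahnSeries.C_mul_eq_smul, HahnSeries.coeff_smul, smul_eq_mul] at hcoeff
  have hne : L.coeff L.order ≠ 0 := fun h => hL0 (HahnSeries.coeff_order_eq_zero.mp h)
  rw [← hord]
  exact mul_right_cancel₀ hne hcoeff

end RootData

end Fermat.Agent.S29lib.K3
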