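/-
S29lib / K3 / CuspDiv (helper6).  (K3b, cusps, in terms of the divisor)
For a root datum `(y, χ)` of `G ∈ WH0 Γ₀(N)`: `χ` kills the parabolic elements of `Γ₀(N)` if and
only if the orders of `G` at all the primes of the chart at infinity are divisible by `n`.
-/
import Mathlib
import Fermat.Agent.ProgramR.ES.Parabolic
import Fermat.Agent.ProgramR.ES.ParabolicDim
import Fermat.Agent.S29lib.K3.Cusp
import Fermat.Agent.S29lib.K3.Curve

set_option autoImplicit false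
set_option linter.unusedSectionVars false

noncomputable section

namespace Fermat.Agent.S29lib.K3

open Fermat.Agent.ProgramR Fermat.Agent.ProgramR.QExp Fermat.Agent.ProgramR.CuspLocal
open Fermat.Agent.ProgramR.RR Fermat.Agent.ProgramR.Alg Fermat.Agent.ProgramR.ES
open UpperHalfPlane CongruenceSubgroup Function IsDedekindDomain Matrix
open scoped MatrixGroups Manifold Real

attribute [local instance] Genus.cosetFintype

/-- an element of `SL(2,ℤ)` with lower left entry `0` is `± T^s` -/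
lemma eq_T_zpow_or_neg_of_c_eq_zero (g : SL(2, ℤ)) (hc : g 1 0 = 0) :
    ∃ s : ℤ, g = ModularGroup.T ^ s ∨ g = -ModularGroup.T ^ s := by
  have had := g.det_coe
  replace had : g 0 0 * g 1 1 = 1 := by rw [det_fin_two, hc] at had; lia
  rcases Int.eq_one_or_neg_one_of_mul_eq_one' had with (⟨ha, hd⟩ | ⟨ha, hd⟩)
  · refine ⟨g 0 1, Or.inl ?_⟩
    ext i j
    fin_cases i <;> fin_cases j <;>
      simp [ha, hc, hd, ModularGroup.coe_T_zpow, show (1 : Fin (0 + 2)) = (1 : Fin 2) from rfl]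
  · refine ⟨-(g 0 1), Or.inr ?_⟩
    ext i j
    fin_cases i <;> fin_cases j <;>
      simp [ha, hc, hd, ModularGroup.coe_T_zpow, show (1 : Fin (0 + 2)) = (1 : Fin 2) from rfl]

/-- **classification of the parabolic elements**: `γ = ± g⁻¹ T^s g` -/
lemma exists_eq_conj_T_zpow_of_isPar (γ : SL(2, ℤ)) (h : IsPar γ) :
    ∃ (g : SL(2, ℤ)) (s : ℤ), γ = g⁻¹ * (ModularGroup.T ^ s * g) ∨
      γ = -(g⁻¹ * (ModularGroup.T ^ s * g)) := by
  obtain ⟨κ, hκ⟩ := exists_conj_lowerLeft_eq_zero γ h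
  obtain ⟨s, hs⟩ := eq_T_zpow_or_neg_of_c_eq_zero _ hκ
  refine ⟨κ, s, ?_⟩
  rcases hs with hs | hs
  · left
    rw [← hs]
    group
  · right
    have : γ = κ⁻¹ * ((κ * γ * κ⁻¹) * κ) := by group
    rw [this, hs]
    simp

lemma twistFactor_zpow_eq_one_iff' (M : ℕ) (hM : M ≠ 0) (s k : ℤ) :
    twistFactor (M : ℝ) (s : ℝ) ^ k = 1 ↔ (M : ℤ) ∣ s * k := by
  have hN : (M : ℂ) ≠ 0 := by exact_mod_cast hM
  rw [twistFactor, ← Complex.exp_int_mul, Complex.exp_eq_one_iff]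
  constructor
  · rintro ⟨r, hr⟩
    refine ⟨r, ?_⟩
    have h2 : (2 * (π : ℂ) * Complex.I) ≠ 0 := by
      simp [Real.pi_ne_zero, Complex.I_ne_zero]
    have h3 : ((s : ℂ) * k) = (M : ℂ) * (r : ℂ) := by
      have : (k : ℂ) * (2 * π * Complex.I * ((s : ℝ) : ℂ) / ((M : ℝ) : ℂ)) * (M : ℂ) =
          (r : ℂ) * (2 * π * Complex.I) * (M : ℂ) := by rw [hr]
      push_cast at this
      field_simp at this
      linear_combination this
    exact_mod_cast h3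
  · rintro ⟨r, hr⟩
    refine ⟨r, ?_⟩
    have h3 : ((s : ℂ) * k) = (M : ℂ) * (r : ℂ) := by exact_mod_cast hr
    push_cast
    field_simp
    linear_combination h3

namespace RootData

variable {N : ℕ} [NeZero N] {n : ℕ} {G : ↥(WH0 (Gamma0 N))} (R : RootData N n G)

/-- the character at the generator of the stabiliser of a cusp, in terms of the order of `G` at
the corresponding prime of the chart at infinity -/
lemma χ_cusp_eq_one_iff (hG : G ≠ 0) (hn : 0 < n) (g : SL(2, ℤ)) (s : ℤ)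
    (hπ : g⁻¹ * (ModularGroup.T ^ s * g) ∈ Gamma0 N) :
    R.χ ⟨_, hπ⟩ = 1 ↔ ((n * N : ℕ) : ℤ) ∣ s * (cuspExp N g G).order := by
  have h1 := R.χ_cusp hG hn g s hπ
  have hM : n * N ≠ 0 := Nat.mul_ne_zero hn.ne' (NeZero.ne N)
  have h2 := twistFactor_zpow_eq_one_iff' (n * N) hM s (cuspExp N g G).order
  have e : (((n * N : ℕ) : ℝ)) = (n : ℝ) * (N : ℝ) := by push_cast; ring
  rw [e, ← h1] at h2
  rw [← h2]
  constructor
  · intro h
    rw [h, Units.val_one]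
  · intro h
    exact Units.ext h

/-- if `n ∣ ord_Q G` then `χ` is trivial on the stabiliser of the cusp `Q` -/
lemma χ_cusp_eq_one_of_dvd (hG : G ≠ 0) (hn : 0 < n) (g : SL(2, ℤ)) (s : ℤ)
    (hπ : g⁻¹ * (ModularGroup.T ^ s * g) ∈ Gamma0 N)
    (hdvd : (n : ℤ) ∣ ordV (gamma0CuspPrime N (QuotientGroup.mk g)) (toFan N G)) :
    R.χ ⟨_, hπ⟩ = 1 := by
  rw [R.χ_cusp_eq_one_iff hG hn g s hπ, order_cuspExp_Gamma0 N g hG]
  have hw : (width N (QuotientGroup.mk g : SL(2, ℤ) ⧸ Gamma0 N) : ℤ) ∣ s := by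
    rw [← T_zpow_smul_eq_iff_width_dvd, T_zpow_smul_mk_eq_iff]
    exact hπ
  set w := width N (QuotientGroup.mk g : SL(2, ℤ) ⧸ Gamma0 N) with hwdef
  obtain ⟨s', hs'⟩ := hw
  obtain ⟨o', ho'⟩ := hdvd
  obtain ⟨d, hd⟩ := width_dvd N (QuotientGroup.mk g : SL(2, ℤ) ⧸ Gamma0 N)
  have hwpos : 0 < w := width_pos N _
  have hdiv : N / w = d := by rw [hd, Nat.mul_div_cancel_left d hwpos]
  rw [hdiv, ho', hs']
  refine ⟨s' * o', ?_⟩
  have hN : (N : ℤ) = (w : ℤ) * (d : ℤ) := by exact_mod_cast hd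
  push_cast
  rw [hN]
  ring

/-- if `χ` is trivial on the generator of the stabiliser of the cusp `Q` then `n ∣ ord_Q G` -/
lemma dvd_of_χ_cusp_eq_one (hG : G ≠ 0) (hn : 0 < n) (g : SL(2, ℤ))
    (h : ∀ hπ : g⁻¹ * (ModularGroup.T ^ ((width N (QuotientGroup.mk g : SL(2, ℤ) ⧸ Gamma0 N) : ℕ) : ℤ)
      * g) ∈ Gamma0 N, R.χ ⟨_, hπ⟩ = 1) :
    (n : ℤ) ∣ ordV (gamma0CuspPrime N (QuotientGroup.mk g)) (toFan N G) := by
  set w := width N (QuotientGroup.mk g : SL(2, ℤ) ⧸ Gamma0 N) with hwdef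
  have hπ : g⁻¹ * (ModularGroup.T ^ ((w : ℕ) : ℤ) * g) ∈ Gamma0 N := by
    rw [← T_zpow_smul_mk_eq_iff, zpow_natCast]
    exact T_pow_width_smul N _
  have h1 := (R.χ_cusp_eq_one_iff hG hn g (w : ℤ) hπ).mp (h hπ)
  rw [order_cuspExp_Gamma0 N g hG, ← hwdef] at h1
  obtain ⟨d, hd⟩ := width_dvd N (QuotientGroup.mk g : SL(2, ℤ) ⧸ Gamma0 N)
  have hwpos : 0 < w := width_pos N _
  have hdiv : N / w = d := by rw [hd, Nat.mul_div_cancel_left d hwpos]
  rw [hdiv] at h1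
  have hN : (N : ℤ) = (w : ℤ) * (d : ℤ) := by exact_mod_cast hd
  have hN0 : (N : ℤ) ≠ 0 := by exact_mod_cast NeZero.ne N
  obtain ⟨r, hr⟩ := h1
  refine ⟨r, ?_⟩
  apply mul_left_cancel₀ hN0
  push_cast at hr
  rw [hN] at hr ⊢
  linear_combination hr

/-- **(K3b ⇐, cusps)** if the divisor of `G` at infinity is divisible by `n` then `χ` kills the
parabolic elements -/
theorem χ_eq_one_of_isPar (hG : G ≠ 0) (hn : 0 < n)
    (hdvd : ∀ Q : HeightOneSpectrum (BnInf N), (n : ℤ) ∣ ordV Q (toFan N G))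
    (γ : Gamma0 N) (hγ : IsPar (γ : SL(2, ℤ))) : R.χ γ = 1 := by
  obtain ⟨g, s, h | h⟩ := exists_eq_conj_T_zpow_of_isPar _ hγ
  · have hπ : g⁻¹ * (ModularGroup.T ^ s * g) ∈ Gamma0 N := h ▸ γ.2
    have e : γ = ⟨_, hπ⟩ := Subtype.ext h
    rw [e]
    exact R.χ_cusp_eq_one_of_dvd hG hn g s hπ (hdvd _)
  · have hneg : (-1 : SL(2, ℤ)) ∈ Gamma0 N := neg_one_mem_Gamma0 N
    have hπ : g⁻¹ * (ModularGroup.T ^ s * g) ∈ Gamma0 N := by
      have h2 : g⁻¹ * (ModularGroup.T ^ s * g) = (-1 : SL(2, ℤ)) * γ := by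
        rw [h]
        simp
      rw [h2]
      exact (Gamma0 N).mul_mem hneg γ.2
    have e : γ = ⟨-1, hneg⟩ * ⟨_, hπ⟩ := by
      apply Subtype.ext
      rw [h]
      simp
    rw [e, map_mul, R.χ_neg_one hG hn hneg, one_mul]
    exact R.χ_cusp_eq_one_of_dvd hG hn g s hπ (hdvd _)

/-- **(K3b ⇒, cusps)** if `χ` kills the parabolic elements then the divisor of `G` at infinity is
divisible by `n` -/
theorem dvd_ordV_inf_of_χ (hG : G ≠ 0) (hn : 0 < n)
    (hχ : ∀ γ : Gamma0 N, IsPar (γ : SL(2, ℤ)) → R.χ γ = 1)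
    (Q : HeightOneSpectrum (BnInf N)) : (n : ℤ) ∣ ordV Q (toFan N G) := by
  obtain ⟨g, hg⟩ := exists_gamma0CuspPrime_eq N Q
  rw [← hg]
  refine R.dvd_of_χ_cusp_eq_one hG hn g (fun hπ => hχ _ ?_)
  show IsPar (g⁻¹ * (ModularGroup.T ^ _ * g))
  rw [← mul_assoc, zpow_natCast]
  exact isPar_conj _ g (isPar_T_pow _)

end RootData

end Fermat.Agent.S29lib.K3
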