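/-
S29lib / K3 / FinDict (helper6).
The finite-point dictionary of `B_N = WH0 Γ₀(N)` with the extra information that the local
multiplicity `s` (`ord_z = s · ord_P`) divides the order `jOrder z ∈ {1,2,3}`, in particular `s ∣ 6`.
-/
import Mathlib
import Fermat.Agent.ProgramR.Analytic.Gamma0Dict
import Fermat.Agent.S29lib.K3.Curve

set_option autoImplicit false
set_option linter.unusedSectionVars false

noncomputable section

namespace Fermat.Agent.S29lib.K3

open Fermat.Agent.ProgramR Fermat.Agent.ProgramR.RR Fermat.Agent.ProgramR.Alg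
open UpperHalfPlane Polynomial Module CongruenceSubgroup IsDedekindDomain
open scoped Manifold MatrixGroups

attribute [local instance] Genus.cosetFintype

variable (N : ℕ) [NeZero N]

/-- **(Dfin)** with the divisibility `s ∣ 6`: every prime of `B_N` is `P_z` for some `z`, with the
order formula `ord_z a = s · ord_P a`. -/
theorem exists_point_ordAt_eq_dvd (P : HeightOneSpectrum (Bn N)) :
    ∃ (z : ℍ) (s : ℕ), 0 < s ∧ s ∣ 6 ∧ (∀ h : Bn N, h ∈ P.asIdeal ↔ h.1 z = 0) ∧
      ∀ a : Bn N, a ≠ 0 → Hol.ordAt z (WH0.toHol (Gamma0 N) a) =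
        ((s * (ordV P (toFan N a)).toNat : ℕ) : ℕ∞) := by
  set A := gamma0Chart N
  have := P.isPrime
  obtain ⟨c, hc⟩ := exists_X_sub_C_mem (k := ℂ) P.asIdeal P.ne_bot
  obtain ⟨z₀, hz⟩ := LevelOne.jInv_surjective c
  obtain ⟨g, hPg, t, htpos, htO, ht⟩ := A.exists_ordAt_eq_mul_ordV (L := Fan N)
    (gamma0Chart_card N) (neg_one_mem_Gamma0 N) z₀ c hz P hc
  refine ⟨g⁻¹ • z₀, t, htpos, ?_, ?_, ht⟩
  · have h1 : t ∣ LevelOne.jOrder z₀ := ⟨_, htO.symm⟩
    rcases jOrder_cases z₀ with h | h | h <;> rw [h] at h1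
    · exact h1.trans (by norm_num)
    · exact h1.trans (by norm_num)
    · exact h1.trans (by norm_num)
  · intro h
    rw [hPg, A.mem_center_mk]
    rfl

end Fermat.Agent.S29lib.K3
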