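/-
S29lib / K3 / EllipticCoprime (helper6).  (K3b, finite points, exponent prime to 6)
For a root datum `(y, χ)` of `G ∈ WH0 Γ₀(N)` with exponent `n` prime to `6`:
* `χ` kills the elements of finite order (`γ^12 = 1`);
* the orders of `G` at all primes of the finite chart are divisible by `n`.
-/
import Mathlib
import Fermat.Agent.S29lib.K3.FinDict
import Fermat.Agent.S29lib.K3.RootData

set_option autoImplicit false
set_option linter.unusedSectionVars false

noncomputable section

namespace Fermat.Agent.S29lib.K3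

open Fermat.Agent.ProgramR Fermat.Agent.ProgramR.RR Fermat.Agent.ProgramR.Alg
open UpperHalfPlane CongruenceSubgroup IsDedekindDomain
open scoped Manifold MatrixGroups

attribute [local instance] Genus.cosetFintype

lemma Hol_ordAt_pow (z : ℍ) (f : Hol) (n : ℕ) : Hol.ordAt z (f ^ n) = n • Hol.ordAt z f := by
  induction n with
  | zero =>
    rw [pow_zero, zero_smul]
    have : (1 : Hol) = algebraMap ℂ Hol 1 := (map_one _).symm
    rw [this]
    exact Hol.ordAt_const z one_ne_zero
  | succ n ih => rw [pow_succ, Hol.ordAt_mul, ih, succ_nsmul]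

namespace RootData

variable {N : ℕ} [NeZero N] {n : ℕ} {G : Bn N} (R : RootData N n G)

/-- for `n` prime to `6` the character kills the elements of finite order -/
theorem χ_eq_one_of_pow_twelve_of_coprime (hG : G ≠ 0) (hcop : Nat.Coprime n 6)
    (γ : Gamma0 N) (hγ : (γ : SL(2, ℤ)) ^ 12 = 1) : R.χ γ = 1 := by
  have h12 : R.χ γ ^ 12 = 1 := by
    have : γ ^ 12 = 1 := Subtype.ext (by rw [Subgroup.coe_pow, hγ]; rfl)
    rw [← map_pow, this, map_one]
  have hn : R.χ γ ^ n = 1 := R.χ_pow hG γ
  have hc12 : Nat.Coprime n 12 := by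
    have h2 : Nat.Coprime n 2 := hcop.coprime_dvd_right (by norm_num)
    have : (12 : ℕ) = 2 * 6 := by norm_num
    rw [this]
    exact Nat.Coprime.mul_right h2 hcop
  have := pow_gcd_eq_one.mpr ⟨hn, h12⟩
  rwa [Nat.Coprime.gcd_eq_one hc12, pow_one] at this

include R in
/-- for `n` prime to `6` the existence of an `n`-th root on `ℍ` forces the divisor of `G` on the
finite chart to be divisible by `n` -/
theorem dvd_ordV_fin_of_coprime (hG : G ≠ 0) (hn : 0 < n) (hcop : Nat.Coprime n 6)
    (P : HeightOneSpectrum (Bn N)) : (n : ℤ) ∣ ordV P (toFan N G) := by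
  obtain ⟨z, s, hs, hs6, -, hord⟩ := exists_point_ordAt_eq_dvd N P
  have h1 := hord G hG
  rw [← R.pow_eq, Hol_ordAt_pow] at h1
  have hy : Hol.ordAt z R.y ≠ ⊤ := by
    rw [Ne, Hol.ordAt_eq_top_iff]
    exact R.y_ne_zero hG hn
  obtain ⟨m, hm⟩ := ENat.ne_top_iff_exists.1 hy
  rw [← hm] at h1
  have h2 : n * m = s * (ordV P (toFan N G)).toNat := by
    have : ((n * m : ℕ) : ℕ∞) = ((s * (ordV P (toFan N G)).toNat : ℕ) : ℕ∞) := by
      rw [← h1]
      simp
    exact_mod_cast this
  have hns : Nat.Coprime n s := hcop.coprime_dvd_right hs6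
  have h3 : n ∣ (ordV P (toFan N G)).toNat := hns.dvd_of_dvd_mul_left ⟨m, h2.symm⟩
  have h0 : 0 ≤ ordV P (toFan N G) := ordV_algebraMap_nonneg (L := Fan N) P hG
  have h4 : ((ordV P (toFan N G)).toNat : ℤ) = ordV P (toFan N G) := Int.toNat_of_nonneg h0
  rw [← h4]
  exact_mod_cast h3

end RootData

end Fermat.Agent.S29lib.K3
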