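/-
S29lib / K3 / Glue (helper6).
The inputs (a)–(d) of `K1.exists_kummerEquiv` for the analytic curve `Fan N / ℂ`, the Kummer
relation `K1.IsKum (Gamma0 N) n` and the subgroup `charSub N n` of the characters of exponent `n`
killing the parabolic and the finite order elements; the ELLIPTIC input is isolated in the
structure `EllInput N n` (proved here for `n` prime to `6`).
-/
import Mathlib
import Fermat.Agent.S29lib.K1.KummerRel
import Fermat.Agent.S29lib.K1.Const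
import Fermat.Agent.S29lib.K2.ParTor
import Fermat.Agent.S29lib.K3.CuspDiv
import Fermat.Agent.S29lib.K3.EllipticCoprime

set_option autoImplicit false
set_option linter.unusedSectionVars false

noncomputable section

namespace Fermat.Agent.S29lib.K3

open Fermat.Agent.ProgramR Fermat.Agent.ProgramR.RR Fermat.Agent.ProgramR.Alg
open Fermat.Agent.ProgramR.ES Fermat.Agent.S16lib.LG Fermat.Agent.S29lib
open AlgebraicCurve UpperHalfPlane CongruenceSubgroup IsDedekindDomain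
open scoped Manifold MatrixGroups

attribute [local instance] Genus.cosetFintype

variable (N : ℕ) [NeZero N]

/-- the characters of `Γ₀(N)` of exponent `n` killing the parabolic and the finite order elements -/
def charSub (n : ℕ) : Subgroup (Gamma0 N →* ℂˣ) where
  carrier := {χ | (∀ γ, χ γ ^ n = 1) ∧ ∀ γ : Gamma0 N, IsParTor (γ : SL(2, ℤ)) → χ γ = 1}
  one_mem' := ⟨fun _ => by simp, fun _ _ => rfl⟩
  mul_mem' := by
    rintro χ χ' ⟨h1, h2⟩ ⟨h1', h2'⟩
    refine ⟨fun γ => ?_, fun γ hγ => ?_⟩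
    · rw [MonoidHom.mul_apply, mul_pow, h1, h1', one_mul]
    · rw [MonoidHom.mul_apply, h2 γ hγ, h2' γ hγ, one_mul]
  inv_mem' := by
    rintro χ ⟨h1, h2⟩
    refine ⟨fun γ => ?_, fun γ hγ => ?_⟩
    · rw [MonoidHom.inv_apply, inv_pow, h1, inv_one]
    · rw [MonoidHom.inv_apply, h2 γ hγ, inv_one]

lemma mem_charSub {n : ℕ} {χ : Gamma0 N →* ℂˣ} :
    χ ∈ charSub N n ↔ (∀ γ, χ γ ^ n = 1) ∧
      ∀ γ : Gamma0 N, IsParTor (γ : SL(2, ℤ)) → χ γ = 1 := Iff.rfl

/-- **(a)** the functions without zeros and poles are the constants -/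
theorem hconstAn (f : Fan N) (hf : f ≠ 0) (h : ∀ v : Place ℂ (Fan N), v.ord f = 0) :
    ∃ c : ℂ, algebraMap ℂ (Fan N) c = f :=
  K1.const_of_ord_eq_zero (isCurveAn N) f hf h

instance hasPrincipalDivisorsAn : HasPrincipalDivisors ℂ (Fan N) :=
  (isCurveAn N).hasPrincipalDivisors

/-- the divisor of `f * b ^ n` is divisible by `n` if the divisor of `f` is -/
lemma nDivF_mul_pow {n : ℕ} {f : Fan N} (hf : f ≠ 0) (h : NDivF N n f) {b : Fan N} (hb : b ≠ 0) :
    NDivF N n (f * b ^ n) := by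
  intro v
  rw [v.ord_mul hf (pow_ne_zero _ hb)]
  have h1 : v.ord (b ^ n) = n * v.ord b := by
    have := v.ord_zpow b (n : ℤ)
    rwa [zpow_natCast] at this
  rw [h1]
  exact dvd_add (h v) (dvd_mul_right _ _)

/-- **(b)** the dictionary: divisor divisible by `n` ⇒ orders on `ℍ` divisible by `n` -/
theorem hdictAn {n : ℕ} (hn : 0 < n) (f : Fan N) (hf : f ≠ 0)
    (h : ∀ v : Place ℂ (Fan N), (n : ℤ) ∣ v.ord f) : K1.HDiv (Gamma0 N) n f := by
  obtain ⟨a, b, hb, hab⟩ := IsFractionRing.div_surjective (A := Bn N) f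
  have hb0 : b ≠ 0 := nonZeroDivisors.ne_zero hb
  have hb' : algebraMap (Bn N) (Fan N) b ≠ 0 := toFan_ne_zero N hb0
  obtain ⟨k, rfl⟩ : ∃ k, n = k + 1 := ⟨n - 1, by omega⟩
  have hG : algebraMap (Bn N) (Fan N) (a * b ^ k) =
      f * (algebraMap (Bn N) (Fan N) b) ^ (k + 1) := by
    rw [← hab, map_mul, map_pow, pow_succ]
    field_simp
  have ha0 : a * b ^ k ≠ 0 := by
    intro h0
    rw [h0, map_zero] at hG
    exact (mul_ne_zero hf (pow_ne_zero _ hb')) hG.symm
  refine ⟨a * b ^ k, b, hb0, hG, fun z => ?_⟩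
  apply exists_ordAt_eq_mul_of_NDiv N ha0
  show NDivF N (k + 1) (algebraMap (Bn N) (Fan N) (a * b ^ k))
  rw [hG]
  exact nDivF_mul_pow N hf h hb'

/-- the Kummer relation of `Γ₀(N)` on the analytic function field satisfies the abstract axioms -/
theorem kummerRelAn {n : ℕ} (hn : 0 < n) :
    K1.KummerRel ℂ (Fan N) n (K1.IsKum (Gamma0 N) n (F := Fan N)) :=
  K1.isKum_kummerRel (Gamma0 N) hn (hdictAn N hn)

/-- the root datum of a Kummer datum -/
def rootDataOfIsKum {n : ℕ} {G : Bn N} {y : Hol} {χ : Gamma0 N →* ℂˣ}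
    (hy : y ^ n = WH0.toHol (Gamma0 N) G) (ht : K1.Transforms (Gamma0 N) y χ) :
    RootData N n G where
  y := y
  pow_eq := hy
  χ := χ
  smul_eq := ht.apply

/-- **the elliptic input** -/
structure EllInput (n : ℕ) : Prop where
  kills : ∀ (G : Bn N), G ≠ 0 → ∀ R : RootData N n G,
    (∀ P : HeightOneSpectrum (Bn N), (n : ℤ) ∣ ordV P (toFan N G)) →
    ∀ γ : Gamma0 N, (γ : SL(2, ℤ)) ^ 12 = 1 → R.χ γ = 1
  dvd : ∀ (G : Bn N), G ≠ 0 → ∀ R : RootData N n G,
    (∀ γ : Gamma0 N, (γ : SL(2, ℤ)) ^ 12 = 1 → R.χ γ = 1) →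
    ∀ P : HeightOneSpectrum (Bn N), (n : ℤ) ∣ ordV P (toFan N G)

/-- the elliptic input for `n` prime to `6` -/
theorem ellInput_of_coprime {n : ℕ} (hn : 0 < n) (hcop : Nat.Coprime n 6) : EllInput N n where
  kills := fun _ hG R _ γ hγ => R.χ_eq_one_of_pow_twelve_of_coprime hG hcop γ hγ
  dvd := fun _ hG R _ P => R.dvd_ordV_fin_of_coprime hG hn hcop P

variable {N}

/-- **(c)** the Kummer character of a function with divisor divisible by `n` lies in `charSub` -/
theorem hYAn {n : ℕ} (hn : 0 < n) (hE : EllInput N n) (f : Fan N) (χ : Gamma0 N →* ℂˣ)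
    (hf : f ≠ 0) (h : ∀ v : Place ℂ (Fan N), (n : ℤ) ∣ v.ord f)
    (hK : K1.IsKum (Gamma0 N) n f χ) : χ ∈ charSub N n := by
  obtain ⟨G, b, y, hb, hG, hGf, hy, ht⟩ := hK
  set R : RootData N n G := rootDataOfIsKum N hy ht with hR
  have hb' : algebraMap (Bn N) (Fan N) b ≠ 0 := toFan_ne_zero N hb
  have hND : NDivF N n (toFan N G) := by
    show NDivF N n (algebraMap (Bn N) (Fan N) G)
    rw [hGf]
    exact nDivF_mul_pow N hf h hb'
  obtain ⟨hfin, hinf⟩ := (nDivF_iff N n _).mp hND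
  refine ⟨fun γ => R.χ_pow hG γ, fun γ hγ => ?_⟩
  rcases hγ with hpar | htor
  · exact R.χ_eq_one_of_isPar hG hn hinf γ hpar
  · exact hE.kills G hG R hfin γ htor

/-- **(d)** every character in `charSub` is the Kummer character of a function with divisor
divisible by `n` (twisted Eisenstein series) -/
theorem hsurjAn {n : ℕ} (hn : 0 < n) (hE : EllInput N n) (χ : Gamma0 N →* ℂˣ)
    (hχ : χ ∈ charSub N n) :
    ∃ f : Fan N, f ≠ 0 ∧ (∀ v : Place ℂ (Fan N), (n : ℤ) ∣ v.ord f) ∧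
      K1.IsKum (Gamma0 N) n f χ := by
  obtain ⟨hχn, hkill⟩ := hχ
  have hχ0 : ∀ γ : Gamma0 N, (γ : SL(2, ℤ)) 1 0 = 0 → χ γ = 1 :=
    K2.eq_one_of_apply_one_zero_of_kills hkill
  set G : Bn N := K2.gChi χ hn.ne' hχn hχ0 with hGdef
  have hG : G ≠ 0 := K2.gChi_ne_zero hn.ne' hχn hχ0
  set y : Hol := K2.yChi χ (K2.norm_eq_one_of_pow_eq_one hn.ne' hχn) with hydef
  have hy : y ^ n = WH0.toHol (Gamma0 N) G := (K2.toHol_gChi hn.ne' hχn hχ0).symm
  have ht : K1.Transforms (Gamma0 N) y χ :=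
    K1.Transforms.of_apply (fun γ z => K2.yChi_smul _ hχ0 γ z)
  set R : RootData N n G := rootDataOfIsKum N hy ht with hR
  refine ⟨toFan N G, toFan_ne_zero N hG, ?_, ?_⟩
  · rw [← NDivF, nDivF_iff]
    refine ⟨hE.dvd G hG R (fun γ hγ => hkill γ (Or.inr hγ)),
      R.dvd_ordV_inf_of_χ hG hn (fun γ hγ => hkill γ (Or.inl hγ))⟩
  · refine ⟨G, 1, y, one_ne_zero, hG, ?_, hy, ht⟩
    rw [map_one, one_pow, mul_one]

/-- **the analytic Kummer isomorphism** `Pic⁰(Fan N)[n] ≃ charSub N n` -/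
theorem exists_kummerEquivAn {n : ℕ} (hn : 0 < n) (hE : EllInput N n) :
    ∃ κ : Pic0.torsion ℂ (Fan N) n ≃+ Additive (charSub N n),
      ∀ x : Pic0.torsion ℂ (Fan N) n,
        K1.PicRel ℂ n (K1.IsKum (Gamma0 N) n (F := Fan N)) (x : Pic0 ℂ (Fan N))
          ((Additive.toMul (κ x) : charSub N n) : Gamma0 N →* ℂˣ) :=
  K1.exists_kummerEquiv (hconstAn N) (kummerRelAn N hn) hn (charSub N n)
    (hYAn hn hE) (hsurjAn hn hE)

end Fermat.Agent.S29lib.K3
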