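/-
S29lib / K3 / CharEquiv (helper6).
`charSub N n ≃ Hom⁰(Γ₀(N), ℤ/n) ≃ (ℤ/n)^r` via `ψ ↦ exp(2πi ψ/n)` and the coordinates of `Count`,
with the compatibility in `n`.
-/
import Mathlib
import Fermat.Agent.S29lib.K3.Count
import Fermat.Agent.S29lib.K3.ExpChar
import Fermat.Agent.S29lib.K3.Glue

set_option autoImplicit false
set_option linter.unusedSectionVars false

noncomputable section

namespace Fermat.Agent.S29lib.K3

open Fermat.Agent.S16lib.LG Fermat.Agent.ProgramR.ES ModularCurve.Period CongruenceSubgroup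
open Fermat.Agent.ProgramR Fermat.Agent.ProgramR.RR Fermat.Agent.ProgramR.Alg
open scoped MatrixGroups

attribute [local instance] Genus.cosetFintype

variable (N : ℕ) [NeZero N] (n : ℕ) [NeZero n]

lemma expChar_mem_charSub (ψ : ↥(Hom0 N (ZMod n))) :
    expChar n (ψ : Additive (Gamma0 N) →+ ZMod n) ∈ charSub N n := by
  refine ⟨fun γ => expChar_pow n _ γ, fun γ hγ => ?_⟩
  rw [expChar_eq_one_iff]
  exact ψ.2 γ hγ

/-- `Hom⁰(Γ₀(N), ℤ/n) → charSub N n`, `ψ ↦ exp(2πi ψ/n)` -/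
def charHom : ↥(Hom0 N (ZMod n)) →+ Additive (charSub N n) where
  toFun ψ := Additive.ofMul (⟨expChar n ψ.1, expChar_mem_charSub N n ψ⟩ : charSub N n)
  map_zero' := by
    have h : (⟨expChar n (0 : ↥(Hom0 N (ZMod n))).1, expChar_mem_charSub N n 0⟩ : charSub N n) = 1 :=
      Subtype.ext (expChar_zero n)
    rw [h]
    rfl
  map_add' ψ ψ' := by
    have h : (⟨expChar n (ψ + ψ').1, expChar_mem_charSub N n (ψ + ψ')⟩ : charSub N n) =
        ⟨expChar n ψ.1, expChar_mem_charSub N n ψ⟩ * ⟨expChar n ψ'.1, expChar_mem_charSub N n ψ'⟩ :=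
      Subtype.ext (expChar_add n ψ.1 ψ'.1)
    rw [h]
    rfl

lemma charHom_apply (ψ : ↥(Hom0 N (ZMod n))) :
    ((Additive.toMul (charHom N n ψ) : charSub N n) : Gamma0 N →* ℂˣ) = expChar n ψ.1 := rfl

lemma charHom_injective : Function.Injective (charHom N n) := by
  intro ψ ψ' h
  apply Subtype.ext
  apply expChar_injective n
  rw [← charHom_apply, ← charHom_apply, h]

lemma charHom_surjective : Function.Surjective (charHom N n) := by
  intro y
  obtain ⟨ψ, hψ⟩ := exists_expChar_eq n ((Additive.toMul y : charSub N n) : Gamma0 N →* ℂˣ)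
    (Additive.toMul y : charSub N n).2.1
  have hmem : ψ ∈ Hom0 N (ZMod n) := by
    intro γ hγ
    rw [← expChar_eq_one_iff, hψ]
    exact (Additive.toMul y : charSub N n).2.2 γ hγ
  refine ⟨⟨ψ, hmem⟩, ?_⟩
  apply Additive.toMul.injective
  apply Subtype.ext
  rw [charHom_apply]
  exact hψ

/-- `Hom⁰(Γ₀(N), ℤ/n) ≃ charSub N n`, `ψ ↦ exp(2πi ψ/n)` -/
def charEquiv : ↥(Hom0 N (ZMod n)) ≃+ Additive (charSub N n) :=
  AddEquiv.ofBijective (charHom N n) ⟨charHom_injective N n, charHom_surjective N n⟩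

@[simp] lemma charEquiv_apply (ψ : ↥(Hom0 N (ZMod n))) :
    ((Additive.toMul (charEquiv N n ψ) : charSub N n) : Gamma0 N →* ℂˣ) = expChar n ψ.1 := rfl

/-- `(ℤ/n)^r ≃ charSub N n` -/
def latticeCharEquiv : (Fin (rank N) → ZMod n) ≃+ Additive (charSub N n) :=
  (coordEquivFin N n).trans (charEquiv N n)

lemma latticeCharEquiv_apply (c : Fin (rank N) → ZMod n) :
    ((Additive.toMul (latticeCharEquiv N n c) : charSub N n) : Gamma0 N →* ℂˣ) =
      expChar n ((coordEquivFin N n c : ↥(Hom0 N (ZMod n))) : Additive (Gamma0 N) →+ ZMod n) := rfl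

/-- compatibility in `n`: the character of `c mod n` is the `d`-th power of the character of `c`
(`c ∈ (ℤ/nd)^r`) -/
lemma latticeCharEquiv_castHom {m : ℕ} [NeZero m] (d : ℕ) (hm : m = n * d)
    (c : Fin (rank N) → ZMod m) :
    ((Additive.toMul (latticeCharEquiv N n
        (fun i => ZMod.castHom (Dvd.intro d hm.symm) (ZMod n) (c i))) : charSub N n) :
        Gamma0 N →* ℂˣ) =
      ((Additive.toMul (latticeCharEquiv N m c) : charSub N m) : Gamma0 N →* ℂˣ) ^ d := by
  rw [latticeCharEquiv_apply, latticeCharEquiv_apply, coordEquivFin_castHom N n (Dvd.intro d hm.symm)]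
  ext γ
  rw [MonoidHom.pow_apply, expChar_pow_eq n d hm]
  rfl

/-- **the analytic comparison** `Pic⁰(Fan N)[n] ≃ (ℤ/n)^r` -/
theorem exists_latticeEquivAn (hE : EllInput N n) :
    ∃ κ : AlgebraicCurve.Pic0.torsion ℂ (Fan N) n ≃+ (Fin (rank N) → ZMod n),
      ∀ x : AlgebraicCurve.Pic0.torsion ℂ (Fan N) n,
        K1.PicRel ℂ n (K1.IsKum (Gamma0 N) n (F := Fan N)) (x : AlgebraicCurve.Pic0 ℂ (Fan N))
          (expChar n ((coordEquivFin N n (κ x) : ↥(Hom0 N (ZMod n))) :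
            Additive (Gamma0 N) →+ ZMod n)) := by
  obtain ⟨κ₀, hκ₀⟩ := exists_kummerEquivAn (N := N) (Nat.pos_of_ne_zero (NeZero.ne n)) hE
  refine ⟨κ₀.trans (latticeCharEquiv N n).symm, fun x => ?_⟩
  have h := hκ₀ x
  have e : latticeCharEquiv N n ((κ₀.trans (latticeCharEquiv N n).symm) x) = κ₀ x := by
    simp
  rw [← latticeCharEquiv_apply, e]
  exact h

end Fermat.Agent.S29lib.K3
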