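/-
S29lib / K3 / Multiplier (helper6).  (EL1)
Generalised elliptic multiplier: if `y` is holomorphic on `ℍ`, `y ∘ γ = c · y` for some
`γ ∈ SL(2,ℤ)` fixing `z`, and `y` vanishes to order exactly `m` at `z`, then
`c · (cz+d)^(2m) = 1`.
-/
import Mathlib
import Fermat.Agent.ProgramR.Analytic.Elliptic

set_option autoImplicit false

noncomputable section

namespace Fermat.Agent.S29lib.K3

open Fermat.Agent.ProgramR UpperHalfPlane Filter Topology ModularGroup
open scoped Manifold MatrixGroups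

/-- **Generalised elliptic multiplier.** -/
theorem mul_denom_pow_eq_one_of_fixed (y : Hol) (γ : SL(2, ℤ)) (z : ℍ) (hz : γ • z = z) (c : ℂ)
    (hy : ∀ w : ℍ, (y : ℍ → ℂ) (γ • w) = c * (y : ℍ → ℂ) w) {m : ℕ}
    (hm : Hol.ordAt z y = m) : c * denom γ z ^ (2 * m) = 1 := by
  set F : ℂ → ℂ := (y : ℍ → ℂ) ∘ ofComplex with hF
  have hFan : AnalyticAt ℂ F (z : ℂ) := Hol.analyticAt _ z
  obtain ⟨G, hGan, hGz, hFG⟩ := (hFan.analyticOrderAt_eq_natCast).mp hm
  -- the Möbius map near `z`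
  set φ : ℂ → ℂ := fun w ↦ ((γ • ofComplex w : ℍ) : ℂ) with hφ
  have hdet : (γ : GL (Fin 2) ℝ).val.det = 1 := by
    rw [← Matrix.GeneralLinearGroup.val_det_apply]; simp
  have hφan : AnalyticAt ℂ φ (z : ℂ) :=
    z.analyticAt_smul (g := (γ : GL (Fin 2) ℝ)) (by rw [hdet]; exact one_pos)
  have hφz : φ z = z := by
    simp only [hφ, ofComplex_apply]
    exact congr_arg _ hz
  have hφcont : Tendsto φ (𝓝 (z : ℂ)) (𝓝 (z : ℂ)) := by
    have := hφan.continuousAt.tendsto
    rwa [hφz] at this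
  -- `F ∘ φ = c • F` near `z`
  have hinv : ∀ᶠ w in 𝓝 (z : ℂ), F (φ w) = c * F w := by
    filter_upwards [isOpen_upperHalfPlaneSet.mem_nhds z.im_pos] with w hw
    have h1 : ofComplex (φ w) = γ • ofComplex w := by
      simp only [hφ]; exact ofComplex_apply _
    simp only [hF, Function.comp_apply, h1]
    exact hy _
  have hFGφ : ∀ᶠ w in 𝓝 (z : ℂ), F (φ w) = (φ w - z) ^ m • G (φ w) := hφcont.eventually hFG
  -- the difference identity
  have hdiff : ∀ᶠ w in 𝓝 (z : ℂ), φ w - z =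
      (w - z) / (denom γ (ofComplex w) * denom γ z) := by
    filter_upwards [isOpen_upperHalfPlaneSet.mem_nhds z.im_pos] with w hw
    have := coe_smul_sub_coe_smul γ (ofComplex w) z
    rw [hz, ofComplex_apply_of_im_pos hw] at this
    simp only [hφ, ofComplex_apply_of_im_pos hw]
    exact this
  -- the key relation on a punctured neighbourhood
  have hkey : ∀ᶠ w in 𝓝[≠] (z : ℂ),
      G (φ w) = c * (denom γ (ofComplex w) * denom γ z) ^ m * G w := by
    have hall := (hinv.and (hFGφ.and (hdiff.and hFG))).filter_mono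
      (nhdsWithin_le_nhds (s := {(z : ℂ)}ᶜ))
    filter_upwards [hall, self_mem_nhdsWithin] with w ⟨h1, h2, h3, h4⟩ hw
    have hwz : w - (z : ℂ) ≠ 0 := sub_ne_zero.mpr hw
    have hD : denom γ (ofComplex w) * denom γ z ≠ 0 :=
      mul_ne_zero (denom_ne_zero _ _) (denom_ne_zero _ _)
    rw [h2, h3, h4, div_pow, smul_eq_mul, smul_eq_mul] at h1
    have hpow : (w - (z : ℂ)) ^ m ≠ 0 := pow_ne_zero _ hwz
    have hDpow : (denom γ (ofComplex w) * denom γ z) ^ m ≠ 0 := pow_ne_zero _ hD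
    rw [div_mul_eq_mul_div, div_eq_iff hDpow] at h1
    apply mul_left_cancel₀ hpow
    linear_combination h1
  -- pass to the limit
  have hden_cont : Tendsto (fun w : ℂ ↦ denom γ (ofComplex w)) (𝓝 (z : ℂ)) (𝓝 (denom γ z)) := by
    have : ∀ᶠ w in 𝓝 (z : ℂ), denom γ (ofComplex w) = (γ 1 0 : ℂ) * w + γ 1 1 := by
      filter_upwards [isOpen_upperHalfPlaneSet.mem_nhds z.im_pos] with w hw
      rw [ofComplex_apply_of_im_pos hw, denom_apply]
    refine Tendsto.congr' (EventuallyEq.symm this) ?_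
    have : Continuous fun w : ℂ ↦ (γ 1 0 : ℂ) * w + γ 1 1 := by fun_prop
    have h := this.tendsto (z : ℂ)
    rwa [show ((γ 1 0 : ℂ) * (z : ℂ) + γ 1 1) = denom γ z from (denom_apply γ z).symm] at h
  have hlim1 : Tendsto (fun w ↦ G (φ w)) (𝓝[≠] (z : ℂ)) (𝓝 (G z)) :=
    ((hGan.continuousAt.tendsto.comp hφcont)).mono_left nhdsWithin_le_nhds
  have hlim2 : Tendsto (fun w ↦ c * (denom γ (ofComplex w) * denom γ z) ^ m * G w)
      (𝓝[≠] (z : ℂ)) (𝓝 (c * (denom γ z * denom γ z) ^ m * G z)) :=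
    (((((hden_cont.mul_const _).pow m).const_mul c)).mul
      hGan.continuousAt.tendsto).mono_left nhdsWithin_le_nhds
  have heq := tendsto_nhds_unique_of_eventuallyEq hlim1 hlim2 hkey
  have h1 : c * (denom γ z * denom γ z) ^ m = 1 := by
    have : c * (denom γ z * denom γ z) ^ m * G z = 1 * G z := by rw [one_mul]; exact heq.symm
    exact mul_right_cancel₀ hGz this
  rw [pow_mul, pow_two]
  exact h1

end Fermat.Agent.S29lib.K3
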