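/-
S29lib / K3 / EllipticGen (helper6).  (K3b, finite points, arbitrary exponent)
The elliptic input `EllInput N n` for every `n > 0`, from
* (EL1) the generalised elliptic multiplier (`Multiplier.lean`),
* (EL2) an element of `SL(2,ℤ)` with `γ^12 = 1` is `±1` or fixes a point of `ℍ` (hypothesis here),
* (EL3) the finite-point dictionary with a generator of the stabiliser (`StabGen.lean`, helper4).
-/
import Mathlib
import Fermat.Agent.S29lib.K3.Multiplier
import Fermat.Agent.S29lib.K3.StabGen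
import Fermat.Agent.S29lib.K3.Glue

set_option autoImplicit false
set_option linter.unusedSectionVars false

noncomputable section

namespace Fermat.Agent.S29lib.K3

open Fermat.Agent.ProgramR Fermat.Agent.ProgramR.RR Fermat.Agent.ProgramR.Alg
open UpperHalfPlane CongruenceSubgroup IsDedekindDomain
open scoped Manifold MatrixGroups

attribute [local instance] Genus.cosetFintype

variable {N : ℕ} [NeZero N]

/-- there is an element of `B_N` of order `1` at a given prime -/
lemma exists_ordV_eq_one (P : HeightOneSpectrum (Bn N)) :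
    ∃ u : Bn N, u ≠ 0 ∧ ordV P (toFan N u) = 1 := by
  obtain ⟨u, hu⟩ := P.valuation_exists_uniformizer' (Fan N)
  have hu' : P.valuation (Fan N) (algebraMap (Bn N) (Fan N) u) = WithZero.exp (-1 : ℤ) := hu
  refine ⟨u, ?_, ?_⟩
  · rintro rfl
    rw [map_zero, map_zero] at hu'
    exact WithZero.exp_ne_zero hu'.symm
  · show -(WithZero.log (P.valuation (Fan N) (algebraMap (Bn N) (Fan N) u))) = 1
    rw [hu', WithZero.log_exp]
    norm_num

/-- every element of `Γ₀(N)` fixing `z` has `(cz+d)^(2s) = 1`, `s` the local multiplicity -/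
lemma denom_pow_eq_one_of_dict {z : ℍ} {P : HeightOneSpectrum (Bn N)} {s : ℕ}
    (hP : ∀ h : Bn N, h ∈ P.asIdeal ↔ h.1 z = 0)
    (hord : ∀ a : Bn N, a ≠ 0 → Hol.ordAt z (WH0.toHol (Gamma0 N) a) =
      ((s * (ordV P (toFan N a)).toNat : ℕ) : ℕ∞))
    (γ : SL(2, ℤ)) (hγ : γ ∈ Gamma0 N) (hz : γ • z = z) : denom γ z ^ (2 * s) = 1 := by
  obtain ⟨u, hu0, hu1⟩ := exists_ordV_eq_one P
  have huP : u ∈ P.asIdeal := by
    have h1 := (le_ordV_algebraMap_iff (L := Fan N) P hu0 1).1 (by
      show ((1 : ℕ) : ℤ) ≤ ordV P (toFan N u)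
      rw [hu1]
      norm_num)
    simpa using h1
  have huz : u.1 z = 0 := (hP u).mp huP
  have hinv : Hol.slComp γ (WH0.toHol (Gamma0 N) u) = WH0.toHol (Gamma0 N) u := by
    apply Hol.ext
    intro w
    exact (mem_WH0.mp u.2).smul_eq γ hγ w
  have hm : Hol.ordAt z (WH0.toHol (Gamma0 N) u -
      algebraMap ℂ Hol ((WH0.toHol (Gamma0 N) u : ℍ → ℂ) z)) = (s : ℕ∞) := by
    have e : ((WH0.toHol (Gamma0 N) u : ℍ → ℂ) z) = 0 := huz
    rw [e, map_zero, sub_zero, hord u hu0, hu1]
    simp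
  exact Hol.denom_pow_eq_one_of_fixed _ γ z hz hinv hm

/-- an element of the stabiliser of a point of `ℍ` has order dividing `12` -/
lemma pow_twelve_eq_one_of_fixed {γ : SL(2, ℤ)} {z : ℍ} (hz : γ • z = z) : γ ^ 12 = 1 := by
  have hmem : γ ∈ MulAction.stabilizer SL(2, ℤ) z := MulAction.mem_stabilizer_iff.mpr hz
  have hcard : Nat.card (MulAction.stabilizer SL(2, ℤ) z) ∣ 12 := by
    rw [LevelOne.card_stabilizer]
    rcases jOrder_cases z with h | h | h <;> rw [h] <;> norm_num
  have h1 : (⟨γ, hmem⟩ : MulAction.stabilizer SL(2, ℤ) z) ^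
      Nat.card (MulAction.stabilizer SL(2, ℤ) z) = 1 := pow_card_eq_one'
  obtain ⟨d, hd⟩ := hcard
  have h2 : (⟨γ, hmem⟩ : MulAction.stabilizer SL(2, ℤ) z) ^ 12 = 1 := by
    rw [hd, pow_mul, h1, one_pow]
  have := congrArg Subtype.val h2
  simpa using this

/-- **the elliptic input for every exponent**, given (EL2) -/
theorem ellInput_of_torsion
    (hEL2 : ∀ γ : SL(2, ℤ), γ ^ 12 = 1 → γ = 1 ∨ γ = -1 ∨ ∃ z : ℍ, γ • z = z)
    {n : ℕ} (hn : 0 < n) : EllInput N n where
  kills := by
    intro G hG R hfin γ hγ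
    rcases hEL2 _ hγ with h | h | ⟨z, hz⟩
    · have : γ = 1 := Subtype.ext h
      rw [this, map_one]
    · have : γ = ⟨-1, neg_one_mem_Gamma0 N⟩ := Subtype.ext h
      rw [this]
      exact R.χ_neg_one hG hn _
    · obtain ⟨P, s, hs, hP, hord⟩ := exists_prime_ordAt_eq (L := Fan N) N z
      have hy : Hol.ordAt z R.y ≠ ⊤ := by
        rw [Ne, Hol.ordAt_eq_top_iff]
        exact R.y_ne_zero hG hn
      obtain ⟨m, hm⟩ := ENat.ne_top_iff_exists.1 hy
      have h1 := hord G hG
      rw [← R.pow_eq, Hol_ordAt_pow, ← hm] at h1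
      have h2 : n * m = s * (ordV P (toFan N G)).toNat := by
        have : ((n * m : ℕ) : ℕ∞) = ((s * (ordV P (toFan N G)).toNat : ℕ) : ℕ∞) := by
          rw [← h1]
          simp
        exact_mod_cast this
      have h0 : 0 ≤ ordV P (toFan N G) := ordV_algebraMap_nonneg (L := Fan N) P hG
      obtain ⟨k, hk⟩ := hfin P
      have hk0 : 0 ≤ k := by
        by_contra hlt
        rw [not_le] at hlt
        have : (n : ℤ) * k < 0 := mul_neg_of_pos_of_neg (by exact_mod_cast hn) hlt
        omega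
      have h3 : (ordV P (toFan N G)).toNat = n * k.toNat := by
        rw [hk, Int.toNat_mul (by positivity) hk0, Int.toNat_natCast]
      have h4 : m = s * k.toNat := by
        rw [h3] at h2
        have : n * m = n * (s * k.toNat) := by rw [h2]; ring
        exact Nat.eq_of_mul_eq_mul_left hn this
      have h5 := mul_denom_pow_eq_one_of_fixed R.y (γ : SL(2, ℤ)) z hz _
        (fun w => R.smul_eq γ w) hm.symm
      have h6 : denom (γ : SL(2, ℤ)) z ^ (2 * m) = 1 := by
        rw [h4, ← mul_assoc, pow_mul, denom_pow_eq_one_of_dict hP hord _ γ.2 hz, one_pow]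
      rw [h6, mul_one] at h5
      exact Units.ext h5
  dvd := by
    intro G hG R hχ P
    obtain ⟨z, -, -, hPz, -⟩ := exists_point_ordAt_eq (L := Fan N) N P
    obtain ⟨P', s, hs, hP', hord, γ₀, hγ₀, hγz, hordγ⟩ :=
      exists_prime_ordAt_eq_stab (L := Fan N) N z
    have hPP : P' = P := by
      apply HeightOneSpectrum.ext
      ext h
      rw [hP', hPz]
    subst hPP
    have hy : Hol.ordAt z R.y ≠ ⊤ := by
      rw [Ne, Hol.ordAt_eq_top_iff]
      exact R.y_ne_zero hG hn
    obtain ⟨m, hm⟩ := ENat.ne_top_iff_exists.1 hy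
    have h1 := hord G hG
    rw [← R.pow_eq, Hol_ordAt_pow, ← hm] at h1
    have h2 : n * m = s * (ordV P' (toFan N G)).toNat := by
      have : ((n * m : ℕ) : ℕ∞) = ((s * (ordV P' (toFan N G)).toNat : ℕ) : ℕ∞) := by
        rw [← h1]
        simp
      exact_mod_cast this
    have hχ1 : R.χ ⟨γ₀, hγ₀⟩ = 1 := hχ ⟨γ₀, hγ₀⟩ (pow_twelve_eq_one_of_fixed hγz)
    have h5 := mul_denom_pow_eq_one_of_fixed R.y γ₀ z hγz _
      (fun w => R.smul_eq ⟨γ₀, hγ₀⟩ w) hm.symm
    rw [hχ1, Units.val_one, one_mul, pow_mul] at h5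
    have h6 : s ∣ m := by
      rw [← hordγ]
      exact orderOf_dvd_of_pow_eq_one h5
    obtain ⟨m', rfl⟩ := h6
    have h7 : (ordV P' (toFan N G)).toNat = n * m' := by
      have : s * (ordV P' (toFan N G)).toNat = s * (n * m') := by rw [← h2]; ring
      exact Nat.eq_of_mul_eq_mul_left hs this
    have h0 : 0 ≤ ordV P' (toFan N G) := ordV_algebraMap_nonneg (L := Fan N) P' hG
    have h8 : ((ordV P' (toFan N G)).toNat : ℤ) = ordV P' (toFan N G) := Int.toNat_of_nonneg h0
    rw [← h8, h7]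
    exact ⟨m', by push_cast; ring⟩

end Fermat.Agent.S29lib.K3
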