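/-
S29lib / K3 / Torsion  (helper7; brick EL2 of helper6's K3 plan)

An element of `SL(2,ℤ)` with `γ ^ 12 = 1` is `1`, `-1`, or has a fixed point in `ℍ`.

Proof: by Cayley–Hamilton `γ² = tγ - 1` (`t` the trace), so `γ^(n+1) = pₙ₊₁(t) γ - pₙ(t)` with
`p₀ = 0, p₁ = 1, pₙ₊₂ = t pₙ₊₁ - pₙ`; `p₁₂(t) = t(t²-1)(t²-2)(t²-3)(t⁴-4t²+1)`.  If `p₁₂(t) ≠ 0`
then `γ` is scalar, hence `±1`; otherwise `t ∈ {0, ±1}`, `c ≠ 0` and
`z = (a - d)/(2c) + i √(4 - t²)/(2|c|)` is fixed.
-/
import Mathlib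

set_option autoImplicit false

noncomputable section

namespace Fermat.Agent.S29lib.K3

open UpperHalfPlane Matrix
open scoped MatrixGroups

/-- the Chebyshev-like sequence `p₀ = 0, p₁ = 1, pₙ₊₂ = t pₙ₊₁ - pₙ` -/
def chebP (t : ℤ) : ℕ → ℤ
  | 0 => 0
  | 1 => 1
  | (n + 2) => t * chebP t (n + 1) - chebP t n

lemma chebP_twelve (t : ℤ) :
    chebP t 12 = t * (t ^ 2 - 1) * (t ^ 2 - 2) * (t ^ 2 - 3) * (t ^ 4 - 4 * t ^ 2 + 1) := by
  simp only [chebP]
  ring

/-- Cayley–Hamilton for a `2 × 2` matrix of determinant one -/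
lemma sq_eq_trace_smul_sub_one (A : Matrix (Fin 2) (Fin 2) ℤ) (hA : A.det = 1) :
    A * A = A.trace • A - 1 := by
  rw [Matrix.det_fin_two] at hA
  rw [Matrix.trace_fin_two]
  ext i j
  fin_cases i <;> fin_cases j <;>
    simp [Matrix.mul_apply, Fin.sum_univ_two, Matrix.smul_apply, -zsmul_eq_mul] <;>
    first | ring1 | linear_combination -hA

lemma pow_succ_eq_chebP (A : Matrix (Fin 2) (Fin 2) ℤ) (hA : A.det = 1) (n : ℕ) :
    A ^ (n + 1) = chebP A.trace (n + 1) • A - chebP A.trace n • (1 : Matrix (Fin 2) (Fin 2) ℤ) := by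
  induction n with
  | zero => simp [chebP]
  | succ n ih =>
    rw [pow_succ, ih, sub_mul, smul_mul_assoc, smul_mul_assoc, one_mul,
      sq_eq_trace_smul_sub_one A hA]
    simp only [chebP]
    module


lemma int_sq_ne_two (u : ℤ) : u ^ 2 ≠ 2 := by
  intro h
  have h1 : u ≤ 1 := by nlinarith
  have h2 : -1 ≤ u := by nlinarith
  interval_cases u <;> simp at h

lemma int_sq_ne_three (u : ℤ) : u ^ 2 ≠ 3 := by
  intro h
  have h1 : u ≤ 1 := by nlinarith
  have h2 : -1 ≤ u := by nlinarith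
  interval_cases u <;> simp at h

/-- the integer roots of `p₁₂` -/
lemma trace_cases_of_chebP_twelve_eq_zero {t : ℤ} (h : chebP t 12 = 0) :
    t = 0 ∨ t = 1 ∨ t = -1 := by
  rw [chebP_twelve] at h
  rcases mul_eq_zero.mp h with h | h5
  · rcases mul_eq_zero.mp h with h | h4
    · rcases mul_eq_zero.mp h with h | h3
      · rcases mul_eq_zero.mp h with h1 | h2
        · exact Or.inl h1
        · have h' : (t - 1) * (t + 1) = 0 := by linear_combination h2
          rcases mul_eq_zero.mp h' with h | h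
          · exact Or.inr (Or.inl (by omega))
          · exact Or.inr (Or.inr (by omega))
      · exact absurd (by linarith) (int_sq_ne_two t)
    · exact absurd (by linarith) (int_sq_ne_three t)
  · exact absurd (by linear_combination h5) (int_sq_ne_three (t ^ 2 - 2))

/-- **(EL2)** an element of `SL(2,ℤ)` with `γ ^ 12 = 1` is `±1` or has a fixed point in `ℍ`. -/
theorem exists_fixed_point_of_pow_twelve (γ : SL(2, ℤ)) (h : γ ^ 12 = 1) :
    γ = 1 ∨ γ = -1 ∨ ∃ z : ℍ, γ • z = z := by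
  set A : Matrix (Fin 2) (Fin 2) ℤ := (γ : Matrix (Fin 2) (Fin 2) ℤ) with hAdef
  have hdet : A.det = 1 := γ.det_coe
  have hdet' : A 0 0 * A 1 1 - A 0 1 * A 1 0 = 1 := by
    rw [← Matrix.det_fin_two]
    exact hdet
  have hA12 : A ^ 12 = 1 := by
    have := congrArg (fun g : SL(2, ℤ) => (g : Matrix (Fin 2) (Fin 2) ℤ)) h
    simpa using this
  have hP := pow_succ_eq_chebP A hdet 11
  rw [hA12] at hP
  have htr : A.trace = A 0 0 + A 1 1 := Matrix.trace_fin_two A
  set t : ℤ := A.trace with ht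
  have e00 := congrFun (congrFun hP 0) 0
  have e01 := congrFun (congrFun hP 0) 1
  have e10 := congrFun (congrFun hP 1) 0
  have e11 := congrFun (congrFun hP 1) 1
  simp only [Matrix.sub_apply, Matrix.smul_apply, Matrix.one_apply_eq, smul_eq_mul, mul_one,
    Matrix.one_apply_ne (show (0 : Fin 2) ≠ 1 by decide),
    Matrix.one_apply_ne (show (1 : Fin 2) ≠ 0 by decide), mul_zero, sub_zero] at e00 e01 e10 e11
  by_cases hp : chebP t 12 = 0
  · -- `t ∈ {0, ±1}`: a fixed point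
    right; right
    have htc := trace_cases_of_chebP_twelve_eq_zero hp
    have ht2 : t ^ 2 ≤ 1 := by
      rcases htc with h0 | h0 | h0 <;> rw [h0] <;> norm_num
    have hc : A 1 0 ≠ 0 := by
      intro hc0
      rw [hc0, mul_zero, sub_zero] at hdet'
      rcases Int.eq_one_or_neg_one_of_mul_eq_one' hdet' with ⟨h1, h2⟩ | ⟨h1, h2⟩
      · rw [h1, h2] at htr
        rcases htc with h0 | h0 | h0 <;> omega
      · rw [h1, h2] at htr
        rcases htc with h0 | h0 | h0 <;> omega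
    have hcR : (A 1 0 : ℝ) ≠ 0 := by exact_mod_cast hc
    have hpos : (0 : ℝ) < 4 - (t : ℝ) ^ 2 := by
      have : ((t ^ 2 : ℤ) : ℝ) ≤ 1 := by exact_mod_cast ht2
      push_cast at this
      linarith
    set s : ℝ := Real.sqrt (4 - (t : ℝ) ^ 2) with hs
    have hs2 : s ^ 2 = 4 - (t : ℝ) ^ 2 := Real.sq_sqrt hpos.le
    have hspos : 0 < s := Real.sqrt_pos.mpr hpos
    set x : ℝ := ((A 0 0 : ℝ) - A 1 1) / (2 * A 1 0) with hx
    set y : ℝ := s / (2 * |(A 1 0 : ℝ)|) with hy
    have hypos : 0 < y := div_pos hspos (mul_pos two_pos (abs_pos.mpr hcR))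
    have hx2 : 2 * (A 1 0 : ℝ) * x = A 0 0 - A 1 1 := by
      rw [hx]
      field_simp
    have hy2 : 4 * (A 1 0 : ℝ) ^ 2 * y ^ 2 = 4 - (t : ℝ) ^ 2 := by
      rw [hy, div_pow, mul_pow, sq_abs, hs2]
      field_simp
      norm_num
    have him : 0 < ((x : ℂ) + y * Complex.I).im := by simpa using hypos
    refine ⟨⟨(x : ℂ) + y * Complex.I, him⟩, ?_⟩
    apply UpperHalfPlane.ext
    rw [coe_specialLinearGroup_apply]
    simp only [algebraMap_int_eq, Int.coe_castRingHom, Complex.ofReal_intCast]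
    set z : ℂ := (x : ℂ) + y * Complex.I with hz
    have hden : ((γ 1 0 : ℤ) : ℂ) * z + ((γ 1 1 : ℤ) : ℂ) ≠ 0 := by
      have := UpperHalfPlane.denom_ne_zero γ ⟨(x : ℂ) + y * Complex.I, him⟩
      rw [ModularGroup.denom_apply] at this
      exact this
    rw [div_eq_iff hden]
    have hx2C : 2 * (A 1 0 : ℂ) * (x : ℂ) = A 0 0 - A 1 1 := by exact_mod_cast hx2
    have hy2C : 4 * (A 1 0 : ℂ) ^ 2 * (y : ℂ) ^ 2 = 4 - (t : ℂ) ^ 2 := by exact_mod_cast hy2
    have htC : (t : ℂ) = A 0 0 + A 1 1 := by exact_mod_cast htr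
    have hdetC : (A 0 0 : ℂ) * A 1 1 - A 0 1 * A 1 0 = 1 := by exact_mod_cast hdet'
    have hw : (2 * (A 1 0 : ℂ) * z - ((A 0 0 : ℂ) - A 1 1)) ^ 2 = (t : ℂ) ^ 2 - 4 := by
      have e : 2 * (A 1 0 : ℂ) * z - ((A 0 0 : ℂ) - A 1 1) = 2 * (A 1 0 : ℂ) * y * Complex.I := by
        rw [hz, ← hx2C]
        ring
      rw [e, mul_pow, Complex.I_sq]
      linear_combination (-1 : ℂ) * hy2C
    have h4c : (4 * (A 1 0 : ℂ)) ≠ 0 := mul_ne_zero (by norm_num) (by exact_mod_cast hc)
    apply mul_left_cancel₀ h4c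
    show 4 * (A 1 0 : ℂ) * ((A 0 0 : ℂ) * z + A 0 1) = 4 * (A 1 0 : ℂ) * (z * ((A 1 0 : ℂ) * z + A 1 1))
    rw [htC] at hw
    linear_combination (-1 : ℂ) * hw - 4 * hdetC
  · -- `γ` is scalar
    have hb : A 0 1 = 0 := by
      rcases mul_eq_zero.mp e01.symm with h0 | h0
      · exact absurd h0 hp
      · exact h0
    have hc : A 1 0 = 0 := by
      rcases mul_eq_zero.mp e10.symm with h0 | h0
      · exact absurd h0 hp
      · exact h0
    have had : A 0 0 = A 1 1 := by
      have : chebP t 12 * (A 0 0 - A 1 1) = 0 := by linear_combination e11 - e00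
      rcases mul_eq_zero.mp this with h0 | h0
      · exact absurd h0 hp
      · linarith
    rw [hb, zero_mul, sub_zero, ← had] at hdet'
    rcases Int.eq_one_or_neg_one_of_mul_eq_one' hdet' with ⟨h1, -⟩ | ⟨h1, -⟩
    · left
      ext i j
      have h11 : A 1 1 = 1 := by rw [← had]; exact h1
      fin_cases i <;> fin_cases j
      · simpa using h1
      · simpa using hb
      · simpa using hc
      · simpa using h11
    · right; left
      ext i j
      have h11 : A 1 1 = -1 := by rw [← had]; exact h1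
      fin_cases i <;> fin_cases j
      · simpa using h1
      · simpa using hb
      · simpa using hc
      · simpa using h11

end Fermat.Agent.S29lib.K3
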