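/-
S29lib / K3 / Final (helper6).
The analytic Kummer comparison, unconditionally, for every exponent `n > 0`:
`Pic⁰(Fan N)[n] ≃ charSub N n ≃ (ℤ/n)^r`, and the finiteness of `Pic⁰(Fan N)[n]`.
-/
import Mathlib
import Fermat.Agent.S29lib.K3.Torsion
import Fermat.Agent.S29lib.K3.EllipticGen
import Fermat.Agent.S29lib.K3.CharEquiv

set_option autoImplicit false
set_option linter.unusedSectionVars false

noncomputable section

namespace Fermat.Agent.S29lib.K3

open Fermat.Agent.ProgramR Fermat.Agent.ProgramR.RR Fermat.Agent.ProgramR.Alg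
open Fermat.Agent.S16lib.LG AlgebraicCurve CongruenceSubgroup
open scoped MatrixGroups

attribute [local instance] Genus.cosetFintype

variable (N : ℕ) [NeZero N]

/-- **the elliptic input, for every exponent** -/
theorem ellInput {n : ℕ} (hn : 0 < n) : EllInput N n :=
  ellInput_of_torsion exists_fixed_point_of_pow_twelve hn

/-- **the analytic Kummer isomorphism** `Pic⁰(Fan N)[n] ≃ charSub N n` -/
theorem exists_kummerEquivAn' {n : ℕ} (hn : 0 < n) :
    ∃ κ : Pic0.torsion ℂ (Fan N) n ≃+ Additive (charSub N n),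
      ∀ x : Pic0.torsion ℂ (Fan N) n,
        K1.PicRel ℂ n (K1.IsKum (Gamma0 N) n (F := Fan N)) (x : Pic0 ℂ (Fan N))
          ((Additive.toMul (κ x) : charSub N n) : Gamma0 N →* ℂˣ) :=
  exists_kummerEquivAn hn (ellInput N hn)

/-- **the analytic comparison** `Pic⁰(Fan N)[n] ≃ (ℤ/n)^r` -/
theorem exists_latticeEquivAn' (n : ℕ) [NeZero n] :
    ∃ κ : Pic0.torsion ℂ (Fan N) n ≃+ (Fin (rank N) → ZMod n),
      ∀ x : Pic0.torsion ℂ (Fan N) n,
        K1.PicRel ℂ n (K1.IsKum (Gamma0 N) n (F := Fan N)) (x : Pic0 ℂ (Fan N))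
          (expChar n ((coordEquivFin N n (κ x) : ↥(Hom0 N (ZMod n))) :
            Additive (Gamma0 N) →+ ZMod n)) :=
  exists_latticeEquivAn N n (ellInput N (Nat.pos_of_ne_zero (NeZero.ne n)))

/-- **finiteness of the torsion of the analytic Jacobian** -/
theorem finite_torsionAn {n : ℕ} (hn : 0 < n) :
    (Pic0.torsion ℂ (Fan N) n : Set (Pic0 ℂ (Fan N))).Finite := by
  have : NeZero n := ⟨hn.ne'⟩
  obtain ⟨κ, -⟩ := exists_latticeEquivAn' N n
  have : Finite (Pic0.torsion ℂ (Fan N) n) := Finite.of_equiv _ κ.symm.toEquiv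
  exact Set.toFinite _

/-- the number of `n`-torsion points of the analytic Jacobian -/
theorem card_torsionAn {n : ℕ} (hn : 0 < n) :
    Nat.card (Pic0.torsion ℂ (Fan N) n) = n ^ rank N := by
  have : NeZero n := ⟨hn.ne'⟩
  obtain ⟨κ, -⟩ := exists_latticeEquivAn' N n
  rw [Nat.card_congr κ.toEquiv, Nat.card_fun, Nat.card_zmod, Nat.card_eq_fintype_card,
    Fintype.card_fin]

end Fermat.Agent.S29lib.K3
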