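/-
S29lib, block K3 (helper4), brick EL3: the finite-point dictionary of `WH0 (Γ₀(N))` with the
stabiliser.  At every `z : ℍ` the analytic order is `s` times the `P_z`-adic order, where `2s` is
the order of the stabiliser of `z` in `Γ₀(N)`; the stabiliser is cyclic, generated by some `γ`
with `denom γ z ^ 2` of exact order `s`.
-/
import Mathlib
import Fermat.Agent.ProgramR.Analytic.Gamma0Dict
import Fermat.Agent.ProgramR.Analytic.Elliptic

set_option autoImplicit false

noncomputable section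

namespace Fermat.Agent.S29lib.K3

open UpperHalfPlane Polynomial Module CongruenceSubgroup IsDedekindDomain
open Fermat.Agent.ProgramR
open scoped Manifold MatrixGroups

attribute [local instance] Genus.cosetFintype

/-! ### The stabiliser of a point inside a subgroup -/

section Stab

variable (Γ : Subgroup SL(2, ℤ)) (z : ℍ)

/-- the stabiliser of `z` in `Γ`, as a subgroup of `SL(2,ℤ)`. -/
def stabIn : Subgroup SL(2, ℤ) := MulAction.stabilizer SL(2, ℤ) z ⊓ Γ

lemma mem_stabIn {γ : SL(2, ℤ)} : γ ∈ stabIn Γ z ↔ γ • z = z ∧ γ ∈ Γ := by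
  rw [stabIn, Subgroup.mem_inf, MulAction.mem_stabilizer_iff]

instance finite_stabilizer : Finite (MulAction.stabilizer SL(2, ℤ) z) := by
  apply Nat.finite_of_card_ne_zero
  rw [LevelOne.card_stabilizer]
  rcases jOrder_cases z with h | h | h <;> omega

instance finite_stabIn : Finite (stabIn Γ z) :=
  Finite.of_injective (fun γ : stabIn Γ z =>
    (⟨γ.1, ((mem_stabIn Γ z).mp γ.2).1⟩ : MulAction.stabilizer SL(2, ℤ) z))
    (fun a b h => Subtype.ext (congrArg (fun x : MulAction.stabilizer SL(2, ℤ) z => (x : SL(2, ℤ))) h))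

/-- the multiplier character `γ ↦ cz + d` on the stabiliser. -/
def denomHom : stabIn Γ z →* ℂˣ where
  toFun γ := Units.mk0 (denom (γ : SL(2, ℤ)) z) (denom_ne_zero _ _)
  map_one' := by
    apply Units.ext
    show denom ((1 : SL(2, ℤ))) z = 1
    exact denom_one_SL z
  map_mul' a b := by
    apply Units.ext
    show denom ((a * b : SL(2, ℤ))) z = denom (a : SL(2, ℤ)) z * denom (b : SL(2, ℤ)) z
    rw [denom_mul_SL, ((mem_stabIn Γ z).mp b.2).1]

lemma coe_denomHom (γ : stabIn Γ z) : ((denomHom Γ z γ : ℂˣ) : ℂ) = denom (γ : SL(2, ℤ)) z := rfl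

lemma denomHom_injective : Function.Injective (denomHom Γ z) := by
  rw [injective_iff_map_eq_one]
  intro γ hγ
  have h1 : denom (γ : SL(2, ℤ)) z = 1 := by
    rw [← coe_denomHom, hγ, Units.val_one]
  have hfix := ((mem_stabIn Γ z).mp γ.2).1
  rcases eq_one_or_neg_one_of_denom_sq hfix (by rw [h1, one_pow]) with h | h
  · exact Subtype.ext h
  · exfalso
    rw [h, denom_neg_one_SL] at h1
    norm_num at h1

instance isCyclic_stabIn : IsCyclic (stabIn Γ z) :=
  isCyclic_of_subgroup_isDomain ((Units.coeHom ℂ).comp (denomHom Γ z))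
    (Units.val_injective.comp (denomHom_injective Γ z))

/-- a generator of the stabiliser, whose multiplier has order the cardinality of the stabiliser. -/
theorem exists_generator_stabIn :
    ∃ γ : SL(2, ℤ), γ ∈ Γ ∧ γ • z = z ∧ orderOf (denom γ z) = Nat.card (stabIn Γ z) := by
  obtain ⟨g, hg⟩ := IsCyclic.exists_generator (α := stabIn Γ z)
  refine ⟨g.1, ((mem_stabIn Γ z).mp g.2).2, ((mem_stabIn Γ z).mp g.2).1, ?_⟩
  have h1 : orderOf g = Nat.card (stabIn Γ z) := orderOf_eq_card_of_forall_mem_zpowers hg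
  have h2 : orderOf (denomHom Γ z g) = orderOf g := orderOf_injective _ (denomHom_injective Γ z) g
  rw [← h1, ← h2, ← orderOf_units, coe_denomHom]

lemma smul_mk_one_eq_iff (g : SL(2, ℤ)) :
    g • (QuotientGroup.mk 1 : SL(2, ℤ) ⧸ Γ) = QuotientGroup.mk 1 ↔ g ∈ Γ := by
  rw [MulAction.Quotient.smul_mk, QuotientGroup.eq, smul_eq_mul, mul_one, mul_one]
  exact Subgroup.inv_mem_iff Γ

/-- orbit–stabiliser: the stabiliser in `Γ` against the orbit of the trivial coset. -/
theorem card_stabIn_mul_card_orbit :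
    Nat.card (MulAction.orbit (MulAction.stabilizer SL(2, ℤ) z)
      (QuotientGroup.mk 1 : SL(2, ℤ) ⧸ Γ)) * Nat.card (stabIn Γ z) =
      Nat.card (MulAction.stabilizer SL(2, ℤ) z) := by
  classical
  set H := MulAction.stabilizer SL(2, ℤ) z with hH
  set x : SL(2, ℤ) ⧸ Γ := QuotientGroup.mk 1 with hx
  letI : Fintype H := Fintype.ofFinite H
  haveI : Finite (MulAction.orbit H x) := (Set.finite_range (fun h : H => h • x)).to_subtype
  letI : Fintype (MulAction.orbit H x) := Fintype.ofFinite _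
  letI : Fintype (MulAction.stabilizer H x) := Fintype.ofFinite _
  have hos := MulAction.card_orbit_mul_card_stabilizer_eq_card_group H x
  rw [← Nat.card_eq_fintype_card, ← Nat.card_eq_fintype_card, ← Nat.card_eq_fintype_card] at hos
  have hequiv : MulAction.stabilizer H x ≃ stabIn Γ z :=
    { toFun := fun h => ⟨(h.1 : SL(2, ℤ)), by
        rw [mem_stabIn]
        refine ⟨MulAction.mem_stabilizer_iff.mp h.1.2, ?_⟩
        have h2 : (h.1 : H) • x = x := MulAction.mem_stabilizer_iff.mp h.2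
        have h3 : ((h.1 : H) : SL(2, ℤ)) • (QuotientGroup.mk 1 : SL(2, ℤ) ⧸ Γ) =
            QuotientGroup.mk 1 := h2
        exact (smul_mk_one_eq_iff Γ _).mp h3⟩
      invFun := fun γ => ⟨⟨γ.1, MulAction.mem_stabilizer_iff.mpr ((mem_stabIn Γ z).mp γ.2).1⟩, by
        rw [MulAction.mem_stabilizer_iff]
        show (γ.1 : SL(2, ℤ)) • (QuotientGroup.mk 1 : SL(2, ℤ) ⧸ Γ) = QuotientGroup.mk 1
        exact (smul_mk_one_eq_iff Γ _).mpr ((mem_stabIn Γ z).mp γ.2).2⟩
      left_inv := fun h => rfl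
      right_inv := fun γ => rfl }
  rw [← Nat.card_congr hequiv]
  exact hos

end Stab

variable (N : ℕ) [NeZero N]
variable {L : Type*} [Field L] [Algebra (WH0 (Gamma0 N)) L] [IsFractionRing (WH0 (Gamma0 N)) L]

/-- **(EL3)**: the finite-point dictionary with the stabiliser. -/
theorem exists_prime_ordAt_eq_stab (z : ℍ) :
    ∃ (P : HeightOneSpectrum (WH0 (Gamma0 N))) (s : ℕ), 0 < s ∧
      (∀ h : WH0 (Gamma0 N), h ∈ P.asIdeal ↔ h.1 z = 0) ∧
      (∀ a : WH0 (Gamma0 N), a ≠ 0 → Hol.ordAt z (WH0.toHol (Gamma0 N) a) =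
        ((s * (Alg.ordV P (algebraMap (WH0 (Gamma0 N)) L a)).toNat : ℕ) : ℕ∞)) ∧
      ∃ γ : SL(2, ℤ), γ ∈ Gamma0 N ∧ γ • z = z ∧ orderOf (denom γ z ^ 2) = s := by
  set A := gamma0Chart N
  have hp0 := A.base_ne_bot z (LevelOne.jInv z) rfl
  let P : HeightOneSpectrum (WH0 (Gamma0 N)) :=
    ⟨A.center z (QuotientGroup.mk 1), (A.centerData z).center_isPrime _,
      (A.centerData z).center_ne_bot hp0 _⟩
  obtain ⟨t, htpos, htorb, ht⟩ := A.ordAt_eq_mul_ordV (L := L) (gamma0Chart_card N)
    (neg_one_mem_Gamma0 N) z (LevelOne.jInv z) rfl 1 P rfl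
  refine ⟨P, t, htpos, ?_, ?_, ?_⟩
  · intro h
    change h ∈ A.center z (QuotientGroup.mk 1) ↔ _
    rw [A.mem_center_mk]
    simp only [inv_one, one_smul]
    rfl
  · intro a ha
    have := ht a ha
    rw [gamma0Chart_ev] at this
    simpa using this
  · -- the stabiliser has `2t` elements
    have hcard : Nat.card (stabIn (Gamma0 N) z) = 2 * t := by
      have h1 := card_stabIn_mul_card_orbit (Gamma0 N) z
      rw [LevelOne.card_stabilizer, ← htorb] at h1
      set O := Nat.card (MulAction.orbit (MulAction.stabilizer SL(2, ℤ) z)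
        (QuotientGroup.mk 1 : SL(2, ℤ) ⧸ Gamma0 N)) with hO
      have hOpos : 0 < O := by
        rcases Nat.eq_zero_or_pos O with h | h
        · rw [h, mul_zero] at htorb
          rcases jOrder_cases z with h' | h' | h' <;> omega
        · exact h
      have h2 : O * Nat.card (stabIn (Gamma0 N) z) = O * (2 * t) := by rw [h1]; ring
      exact Nat.eq_of_mul_eq_mul_left hOpos h2
    obtain ⟨γ, hγΓ, hγz, hord⟩ := exists_generator_stabIn (Gamma0 N) z
    refine ⟨γ, hγΓ, hγz, ?_⟩
    rw [orderOf_pow' _ two_ne_zero, hord, hcard]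
    have : Nat.gcd (2 * t) 2 = 2 := Nat.gcd_eq_right (Dvd.intro t rfl)
    rw [this]
    omega

end Fermat.Agent.S29lib.K3
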